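import Mathlib

/-!
# RR-DIV (helper1), part 1: fractional ideals of a Dedekind domain and adic valuations

Generic Dedekind domain `B` with fraction field `L`.

* `RRD.valuation_eq_exp_neg_count` : `v_P(x) = exp (- count_P (x))` for `x ≠ 0`;
* `RRD.mem_iff_valuation` : `x ∈ I ↔ ∀ P, v_P(x) ≤ exp (- count_P I)`;
* `RRD.le_iff_count`, `RRD.eq_of_count_eq`.
-/

set_option autoImplicit false
set_option linter.style.longLine false
set_option linter.unusedSectionVars false
set_option linter.unusedVariables false

open IsDedekindDomain FractionalIdeal nonZeroDivisors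
open scoped WithZero

noncomputable section

namespace RRD

variable {B : Type*} [CommRing B] [IsDedekindDomain B] (L : Type*) [Field L] [Algebra B L]
  [IsFractionRing B L]

theorem intValuation_eq_exp_neg_count (P : HeightOneSpectrum B) {a : B} (ha : a ≠ 0) :
    P.intValuation a = WithZero.exp (-(count L P ((Ideal.span {a} : Ideal B) : FractionalIdeal B⁰ L))) := by
  classical
  have hs : (Ideal.span {a} : Ideal B) ≠ 0 := by
    rw [Ne, Ideal.zero_eq_bot, Ideal.span_singleton_eq_bot]; exact ha
  rw [P.intValuation_if_neg ha, count_coe L P hs]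

/-- The valuation of a nonzero element is `exp (- count)` of the principal fractional ideal. -/
theorem valuation_eq_exp_neg_count (P : HeightOneSpectrum B) {x : L} (hx : x ≠ 0) :
    P.valuation L x = WithZero.exp (-(count L P (spanSingleton B⁰ x))) := by
  classical
  obtain ⟨a, b, hb, rfl⟩ := IsFractionRing.div_surjective (A := B) x
  have hb0 : b ≠ 0 := nonZeroDivisors.ne_zero hb
  have ha0 : a ≠ 0 := by
    rintro rfl
    simp at hx
  have hbL : algebraMap B L b ≠ 0 := by
    rwa [Ne, map_eq_zero_iff _ (IsFractionRing.injective B L)]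
  have haL : algebraMap B L a ≠ 0 := by
    rwa [Ne, map_eq_zero_iff _ (IsFractionRing.injective B L)]
  have hsa : (spanSingleton B⁰ (algebraMap B L a) : FractionalIdeal B⁰ L) ≠ 0 :=
    spanSingleton_ne_zero_iff.mpr haL
  have hsb : (spanSingleton B⁰ (algebraMap B L b) : FractionalIdeal B⁰ L) ≠ 0 :=
    spanSingleton_ne_zero_iff.mpr hbL
  have e1 : spanSingleton B⁰ (algebraMap B L a / algebraMap B L b)
      = spanSingleton B⁰ (algebraMap B L a) * (spanSingleton B⁰ (algebraMap B L b))⁻¹ := by
    rw [spanSingleton_inv, spanSingleton_mul_spanSingleton, div_eq_mul_inv]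
  rw [e1, count_mul L P hsa (inv_ne_zero hsb), count_inv, map_div₀,
    P.valuation_of_algebraMap, P.valuation_of_algebraMap,
    intValuation_eq_exp_neg_count L P ha0, intValuation_eq_exp_neg_count L P hb0,
    coeIdeal_span_singleton, coeIdeal_span_singleton, ← WithZero.exp_sub]
  congr 1
  ring

theorem count_spanSingleton (P : HeightOneSpectrum B) {x : L} (hx : x ≠ 0) :
    count L P (spanSingleton B⁰ x) = -(WithZero.log (P.valuation L x)) := by
  rw [valuation_eq_exp_neg_count L P hx, WithZero.log_exp, neg_neg]

theorem valuation_le_of_mem (P : HeightOneSpectrum B) {I : FractionalIdeal B⁰ L} (hI : I ≠ 0)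
    {x : L} (hx : x ∈ I) : P.valuation L x ≤ WithZero.exp (-(count L P I)) := by
  rcases eq_or_ne x 0 with rfl | hx0
  · rw [map_zero]; exact zero_le
  have hle : spanSingleton B⁰ x ≤ I := (spanSingleton_le_iff_mem).mpr hx
  have := count_mono L P (spanSingleton_ne_zero_iff.mpr hx0) hle
  rw [valuation_eq_exp_neg_count L P hx0, WithZero.exp_le_exp]
  omega

/-- **Membership in a fractional ideal by valuations.** -/
theorem mem_iff_valuation {I : FractionalIdeal B⁰ L} (hI : I ≠ 0) (x : L) :
    x ∈ I ↔ ∀ P : HeightOneSpectrum B, P.valuation L x ≤ WithZero.exp (-(count L P I)) := by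
  constructor
  · intro hx P
    exact valuation_le_of_mem L P hI hx
  · intro h
    have hI' : I⁻¹ ≠ 0 := inv_ne_zero hI
    rw [← inv_inv I, mem_inv_iff hI']
    intro y hy
    rw [mem_one_iff]
    have hint : ∀ P : HeightOneSpectrum B, P.valuation L (x * y) ≤ 1 := by
      intro P
      have h1 := h P
      have h2 := valuation_le_of_mem L P hI' hy
      rw [count_inv, neg_neg] at h2
      rw [map_mul]
      calc P.valuation L x * P.valuation L y
          ≤ WithZero.exp (-(count L P I)) * WithZero.exp (count L P I) := mul_le_mul' h1 h2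
        _ = 1 := by rw [← WithZero.exp_add, neg_add_cancel, WithZero.exp_zero]
    obtain ⟨b, hb⟩ := HeightOneSpectrum.mem_integers_of_valuation_le_one (R := B) L (x * y) hint
    exact ⟨b, hb⟩

theorem le_iff_count {I J : FractionalIdeal B⁰ L} (hI : I ≠ 0) (hJ : J ≠ 0) :
    J ≤ I ↔ ∀ P : HeightOneSpectrum B, count L P I ≤ count L P J := by
  constructor
  · intro h P
    exact count_mono L P hJ h
  · intro h x hx
    rw [mem_iff_valuation L hI]
    intro P
    refine (valuation_le_of_mem L P hJ hx).trans ?_
    rw [WithZero.exp_le_exp]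
    have := h P
    omega

theorem eq_of_count_eq {I J : FractionalIdeal B⁰ L} (hI : I ≠ 0) (hJ : J ≠ 0)
    (h : ∀ P : HeightOneSpectrum B, count L P I = count L P J) : I = J :=
  le_antisymm ((le_iff_count L hJ hI).mpr fun P => (h P).ge)
    ((le_iff_count L hI hJ).mpr fun P => (h P).le)

end RRD
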