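import Mathlib
import Fermat.Agent.RR.L2
import Fermat.Agent.RR.L1a
import Fermat.Agent.RR.L6b
import Fermat.Agent.RR.L6Dual
import Fermat.Agent.RRD.Frac

/-!
# RR-DIV (helper1), part 2: the `k`-index of fractional ideals

`B` a Dedekind domain which is a `k`-algebra, all residue fields of `B` of `k`-dimension one,
`L = Frac B`.  For a nonzero fractional ideal `I`:

  `relIndex_k (1, I) = ∑ᶠ P, count_P I`   (`RRD.relIndex_one_fsk`).
-/

set_option autoImplicit false
set_option linter.style.longLine false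
set_option linter.unusedSectionVars false
set_option linter.unusedVariables false

open IsDedekindDomain FractionalIdeal nonZeroDivisors Module UniqueFactorizationMonoid RRalg

noncomputable section

namespace RRD

section Scale

variable (k : Type*) [Field k] (L : Type*) [Field L] [Algebra k L]

/-- Multiplication by a nonzero element, as a `k`-linear automorphism of `L`. -/
def scaleEquiv (a : L) (ha : a ≠ 0) : L ≃ₗ[k] L :=
  (LinearEquiv.smulOfNeZero L L a ha).restrictScalars k

theorem scaleEquiv_apply (a : L) (ha : a ≠ 0) (x : L) : scaleEquiv k L a ha x = a * x := rfl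

end Scale

variable (k : Type*) [Field k] {B : Type*} [CommRing B] [IsDedekindDomain B] [Algebra k B]
  (L : Type*) [Field L] [Algebra B L] [IsFractionRing B L] [Algebra k L] [IsScalarTower k B L]

/-- The `k`-subspace underlying a fractional ideal. -/
def fsk (I : FractionalIdeal B⁰ L) : Submodule k L := (I : Submodule B L).restrictScalars k

variable {k L}

theorem mem_fsk {I : FractionalIdeal B⁰ L} {x : L} : x ∈ fsk k L I ↔ x ∈ I := Iff.rfl

theorem fsk_mono {I J : FractionalIdeal B⁰ L} (h : I ≤ J) : fsk k L I ≤ fsk k L J :=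
  fun x hx => h hx

variable (k L)

/-- `B → 1 ⊆ L`. -/
def oneMap : B →ₗ[k] ↥(fsk k L (1 : FractionalIdeal B⁰ L)) :=
  LinearMap.codRestrict (fsk k L (1 : FractionalIdeal B⁰ L)) ((Algebra.linearMap B L).restrictScalars k)
    (fun b => (mem_one_iff B⁰).mpr ⟨b, rfl⟩)

theorem oneMap_coe (b : B) : ((oneMap k L b : ↥(fsk k L (1 : FractionalIdeal B⁰ L))) : L)
    = algebraMap B L b := rfl

theorem oneMap_bijective : Function.Bijective (oneMap k L (B := B)) := by
  constructor
  · intro a b h
    have := congrArg Subtype.val h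
    rw [oneMap_coe, oneMap_coe] at this
    exact IsFractionRing.injective B L this
  · rintro ⟨x, hx⟩
    obtain ⟨b, rfl⟩ := (mem_one_iff B⁰).mp hx
    exact ⟨b, rfl⟩

/-- `B ≃ 1`. -/
def oneEquiv : B ≃ₗ[k] ↥(fsk k L (1 : FractionalIdeal B⁰ L)) :=
  LinearEquiv.ofBijective (oneMap k L) (oneMap_bijective k L)

theorem oneEquiv_coe (b : B) : ((oneEquiv k L b : ↥(fsk k L (1 : FractionalIdeal B⁰ L))) : L)
    = algebraMap B L b := rfl

/-- `1 → B ⧸ J`. -/
def oneToQuot (J : Ideal B) : ↥(fsk k L (1 : FractionalIdeal B⁰ L)) →ₗ[k] (B ⧸ J) :=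
  ((Submodule.mkQ J).restrictScalars k) ∘ₗ (oneEquiv k L).symm.toLinearMap

theorem oneToQuot_oneEquiv (J : Ideal B) (b : B) :
    oneToQuot k L J (oneEquiv k L b) = Ideal.Quotient.mk J b := by
  unfold oneToQuot
  rw [LinearMap.comp_apply]
  simp only [LinearEquiv.coe_coe, LinearEquiv.symm_apply_apply]
  rfl

theorem oneToQuot_surjective (J : Ideal B) : Function.Surjective (oneToQuot k L J) := by
  intro y
  obtain ⟨b, rfl⟩ := Ideal.Quotient.mk_surjective y
  exact ⟨oneEquiv k L b, oneToQuot_oneEquiv k L J b⟩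

theorem oneToQuot_eq_zero_iff (J : Ideal B) (x : ↥(fsk k L (1 : FractionalIdeal B⁰ L))) :
    oneToQuot k L J x = 0 ↔ (x : L) ∈ fsk k L (J : FractionalIdeal B⁰ L) := by
  obtain ⟨b, rfl⟩ := (oneEquiv k L).surjective x
  rw [oneToQuot_oneEquiv, Ideal.Quotient.eq_zero_iff_mem, oneEquiv_coe, mem_fsk, mem_coeIdeal]
  constructor
  · intro hb
    exact ⟨b, hb, rfl⟩
  · rintro ⟨b', hb', h⟩
    rwa [← (IsFractionRing.injective B L) h]

/-- Codimension of an integral ideal in `B`. -/
theorem codim_one_coeIdeal (J : Ideal B) :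
    codim (fsk k L (1 : FractionalIdeal B⁰ L)) (fsk k L (J : FractionalIdeal B⁰ L)) = finrank k (B ⧸ J) ∧
    (Module.Finite k (B ⧸ J) → FinCodim (fsk k L (1 : FractionalIdeal B⁰ L)) (fsk k L (J : FractionalIdeal B⁰ L))) :=
  H27L6.h27_codim_eq_finrank (oneToQuot k L J) (oneToQuot_surjective k L J)
    (oneToQuot_eq_zero_iff k L J)

/-- **Index of an integral ideal**: the number of its prime factors. -/
theorem relIndex_one_coeIdeal
    (hres : ∀ P : Ideal B, P.IsPrime → P ≠ ⊥ → Module.Finite k (B ⧸ P) ∧ finrank k (B ⧸ P) = 1)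
    (J : Ideal B) (hJ : J ≠ ⊥) :
    Comm (fsk k L (1 : FractionalIdeal B⁰ L)) (fsk k L (J : FractionalIdeal B⁰ L)) ∧
      relIndex (fsk k L (1 : FractionalIdeal B⁰ L)) (fsk k L (J : FractionalIdeal B⁰ L))
        = Multiset.card (normalizedFactors J) := by
  have hle : fsk k L (J : FractionalIdeal B⁰ L) ≤ fsk k L (1 : FractionalIdeal B⁰ L) := fsk_mono coeIdeal_le_one
  obtain ⟨hfin, hcard⟩ := H27L6.h27_finrank_quot_eq_card k hres J hJ
  obtain ⟨h1, h2⟩ := codim_one_coeIdeal k L J
  refine ⟨comm_of_le hle (h2 hfin), ?_⟩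
  rw [relIndex_of_le hle, h1, hcard]

/-! ### scaling -/

theorem map_scaleEquiv (a : L) (ha : a ≠ 0) (I : FractionalIdeal B⁰ L) :
    (fsk k L I).map (scaleEquiv k L a ha : L →ₗ[k] L) = fsk k L (spanSingleton B⁰ a * I) := by
  ext x
  rw [Submodule.mem_map, mem_fsk, mem_singleton_mul]
  constructor
  · rintro ⟨z, hz, rfl⟩
    exact ⟨z, hz, rfl⟩
  · rintro ⟨z, hz, rfl⟩
    exact ⟨z, hz, rfl⟩

/-! ### the degree of a fractional ideal -/

/-- `∑_P count_P I`. -/
def ideg (I : FractionalIdeal B⁰ L) : ℤ := ∑ᶠ P : HeightOneSpectrum B, count L P I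

theorem ideg_support_finite (I : FractionalIdeal B⁰ L) :
    (Function.support fun P : HeightOneSpectrum B => count L P I).Finite := by
  have := finite_factors (K := L) I
  rw [Filter.eventually_cofinite] at this
  exact this

theorem ideg_mul {I J : FractionalIdeal B⁰ L} (hI : I ≠ 0) (hJ : J ≠ 0) :
    ideg L (I * J) = ideg L I + ideg L J := by
  unfold ideg
  rw [← finsum_add_distrib (ideg_support_finite L I) (ideg_support_finite L J)]
  congr 1
  funext P
  exact count_mul L P hI hJ

theorem ideg_inv (I : FractionalIdeal B⁰ L) : ideg L I⁻¹ = - ideg L I := by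
  unfold ideg
  rw [← finsum_neg_distrib]
  congr 1
  funext P
  exact count_inv L P I

theorem ideg_one : ideg L (1 : FractionalIdeal B⁰ L) = 0 := by
  unfold ideg
  simp [count_one]

theorem count_coeIdeal_eq (P : HeightOneSpectrum B) {J : Ideal B} (hJ : J ≠ ⊥) :
    count L P (J : FractionalIdeal B⁰ L) = Multiset.count P.asIdeal (normalizedFactors J) := by
  rw [count_coe L P hJ, Ideal.count_associates_factors_eq hJ P.isPrime P.ne_bot]

theorem ideg_coeIdeal {J : Ideal B} (hJ : J ≠ ⊥) :
    ideg L (J : FractionalIdeal B⁰ L) = Multiset.card (normalizedFactors J) := by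
  classical
  unfold ideg
  have hfin : {P : HeightOneSpectrum B | P.asIdeal ∣ J}.Finite := Ideal.finite_factors hJ
  have hsub : (Function.support fun P : HeightOneSpectrum B => count L P (J : FractionalIdeal B⁰ L))
      ⊆ ↑hfin.toFinset := by
    intro P hP
    rw [Function.mem_support, count_coeIdeal_eq L P hJ] at hP
    rw [Set.Finite.coe_toFinset, Set.mem_setOf_eq]
    have hc : Multiset.count P.asIdeal (normalizedFactors J) ≠ 0 := by
      intro h
      exact hP (by rw [h]; rfl)
    exact dvd_of_mem_normalizedFactors (Multiset.count_ne_zero.mp hc)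
  rw [finsum_eq_sum_of_support_subset _ hsub]
  have himg : hfin.toFinset.image (fun P : HeightOneSpectrum B => P.asIdeal)
      = (normalizedFactors J).toFinset := by
    ext Q
    rw [Finset.mem_image, Multiset.mem_toFinset]
    constructor
    · rintro ⟨P, hP, rfl⟩
      rw [Set.Finite.mem_toFinset, Set.mem_setOf_eq] at hP
      obtain ⟨q, hq, hassoc⟩ := exists_mem_normalizedFactors_of_dvd hJ P.irreducible hP
      rw [associated_iff_eq] at hassoc
      rwa [hassoc]
    · intro hQ
      have hQprime : Prime Q := prime_of_normalized_factor Q hQ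
      refine ⟨⟨Q, Ideal.isPrime_of_prime hQprime, hQprime.ne_zero⟩, ?_, rfl⟩
      rw [Set.Finite.mem_toFinset, Set.mem_setOf_eq]
      exact dvd_of_mem_normalizedFactors hQ
  have hinj : Set.InjOn (fun P : HeightOneSpectrum B => P.asIdeal) ↑hfin.toFinset := by
    intro P _ Q _ h
    exact HeightOneSpectrum.ext h
  calc ∑ P ∈ hfin.toFinset, count L P (J : FractionalIdeal B⁰ L)
      = ∑ P ∈ hfin.toFinset, ((Multiset.count P.asIdeal (normalizedFactors J) : ℕ) : ℤ) := by
        refine Finset.sum_congr rfl fun P _ => ?_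
        exact count_coeIdeal_eq L P hJ
    _ = ∑ Q ∈ hfin.toFinset.image (fun P : HeightOneSpectrum B => P.asIdeal),
          ((Multiset.count Q (normalizedFactors J) : ℕ) : ℤ) := by
        rw [Finset.sum_image hinj]
    _ = ((∑ Q ∈ (normalizedFactors J).toFinset, Multiset.count Q (normalizedFactors J) : ℕ) : ℤ) := by
        rw [himg]; push_cast; rfl
    _ = Multiset.card (normalizedFactors J) := by
        rw [Multiset.toFinset_sum_count_eq]

/-- **The index formula**: `[1 : I] = ∑_P count_P I`. -/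
theorem relIndex_one_fsk
    (hres : ∀ P : Ideal B, P.IsPrime → P ≠ ⊥ → Module.Finite k (B ⧸ P) ∧ finrank k (B ⧸ P) = 1)
    {I : FractionalIdeal B⁰ L} (hI : I ≠ 0) (hc : Comm (fsk k L (1 : FractionalIdeal B⁰ L)) (fsk k L I)) :
    relIndex (fsk k L (1 : FractionalIdeal B⁰ L)) (fsk k L I) = ideg L I := by
  obtain ⟨a, J, ha, hIJ⟩ := exists_eq_spanSingleton_mul I
  have haL : algebraMap B L a ≠ 0 := by
    rwa [Ne, map_eq_zero_iff _ (IsFractionRing.injective B L)]
  have hJ0 : J ≠ ⊥ := by
    rintro rfl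
    apply hI
    rw [hIJ]
    simp
  have hspan : (Ideal.span {a} : Ideal B) ≠ ⊥ := by
    rwa [Ne, Ideal.span_singleton_eq_bot]
  -- scaling by `a`
  have e1 : spanSingleton B⁰ (algebraMap B L a) * I = (J : FractionalIdeal B⁰ L) := by
    rw [hIJ, ← mul_assoc, spanSingleton_mul_spanSingleton, mul_inv_cancel₀ haL, spanSingleton_one,
      one_mul]
  have e2 : spanSingleton B⁰ (algebraMap B L a) * (1 : FractionalIdeal B⁰ L)
      = ((Ideal.span {a} : Ideal B) : FractionalIdeal B⁰ L) := by
    rw [mul_one, coeIdeal_span_singleton]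
  have hmapI := map_scaleEquiv k L (algebraMap B L a) haL I
  have hmap1 := map_scaleEquiv k L (algebraMap B L a) haL (1 : FractionalIdeal B⁰ L)
  rw [e1] at hmapI
  rw [e2] at hmap1
  have hrel := relIndex_map (scaleEquiv k L (algebraMap B L a) haL) (fsk k L (1 : FractionalIdeal B⁰ L)) (fsk k L I)
  have hcomm := comm_map (scaleEquiv k L (algebraMap B L a) haL) hc
  rw [hmapI, hmap1] at hrel hcomm
  obtain ⟨hcJ, hrJ⟩ := relIndex_one_coeIdeal k L hres J hJ0
  obtain ⟨hca, hra⟩ := relIndex_one_coeIdeal k L hres (Ideal.span {a}) hspan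
  have htrans := relIndex_trans (comm_symm hca) hcJ hcomm
  rw [relIndex_antisymm (fsk k L ((Ideal.span {a} : Ideal B) : FractionalIdeal B⁰ L)) (fsk k L (1 : FractionalIdeal B⁰ L)),
    hra, hrJ] at htrans
  rw [← hrel, htrans]
  -- the degree
  have hsa : (spanSingleton B⁰ (algebraMap B L a) : FractionalIdeal B⁰ L) ≠ 0 :=
    spanSingleton_ne_zero_iff.mpr haL
  have hJc : (J : FractionalIdeal B⁰ L) ≠ 0 := coeIdeal_ne_zero.mpr hJ0
  have hdeg : ideg L I = ideg L (J : FractionalIdeal B⁰ L)
      - ideg L ((Ideal.span {a} : Ideal B) : FractionalIdeal B⁰ L) := by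
    have : I = ((Ideal.span {a} : Ideal B) : FractionalIdeal B⁰ L)⁻¹ * (J : FractionalIdeal B⁰ L) := by
      rw [coeIdeal_span_singleton, spanSingleton_inv]
      exact hIJ
    rw [this, ideg_mul L (inv_ne_zero (coeIdeal_ne_zero.mpr hspan)) hJc, ideg_inv]
    ring
  rw [hdeg, ideg_coeIdeal L hJ0, ideg_coeIdeal L hspan]
  ring

/-- General form: `[I : J] = ideg J - ideg I`. -/
theorem relIndex_fsk
    (hres : ∀ P : Ideal B, P.IsPrime → P ≠ ⊥ → Module.Finite k (B ⧸ P) ∧ finrank k (B ⧸ P) = 1)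
    {I J : FractionalIdeal B⁰ L} (hI : I ≠ 0) (hJ : J ≠ 0)
    (hcI : Comm (fsk k L (1 : FractionalIdeal B⁰ L)) (fsk k L I)) (hcJ : Comm (fsk k L (1 : FractionalIdeal B⁰ L)) (fsk k L J))
    (hcIJ : Comm (fsk k L I) (fsk k L J)) :
    relIndex (fsk k L I) (fsk k L J) = ideg L J - ideg L I := by
  have h := relIndex_trans (comm_symm hcI) hcJ hcIJ
  rw [h, relIndex_antisymm (fsk k L I) (fsk k L (1 : FractionalIdeal B⁰ L)), relIndex_one_fsk k L hres hI hcI,
    relIndex_one_fsk k L hres hJ hcJ]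
  ring

end RRD
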