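import Mathlib
import Fermat.Agent.RRD.Index
import Fermat.Agent.RR.Field

/-!
# RR-DIV (helper1), part 4: fractional ideals with prescribed exponents; lattices

* `RRD.idealOf n = ∏ P ^ (n P)` for `n : HeightOneSpectrum B →₀ ℤ`, with `count`, `ideg`,
  membership by valuations;
* `RRD.isLattice_fractionalIdeal` : a nonzero fractional ideal of the integral closure `B` of `R`
  in a finite separable extension of `Frac R` is an `R`-lattice.
-/

set_option autoImplicit false
set_option linter.style.longLine false
set_option linter.unusedSectionVars false
set_option linter.unusedVariables false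

open IsDedekindDomain FractionalIdeal nonZeroDivisors Module UniqueFactorizationMonoid RRalg Submodule
open scoped WithZero

noncomputable section

namespace RRD

section IdealOf

variable {B : Type*} [CommRing B] [IsDedekindDomain B] (L : Type*) [Field L] [Algebra B L]
  [IsFractionRing B L]

/-- The fractional ideal `∏ P ^ (n P)`. -/
def idealOf (n : HeightOneSpectrum B →₀ ℤ) : FractionalIdeal B⁰ L :=
  n.prod (fun P m => (P.asIdeal : FractionalIdeal B⁰ L) ^ m)

theorem idealOf_ne_zero (n : HeightOneSpectrum B →₀ ℤ) : idealOf L n ≠ 0 := by
  unfold idealOf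
  rw [Finsupp.prod, Finset.prod_ne_zero_iff]
  intro P _
  exact zpow_ne_zero _ (coeIdeal_ne_zero.mpr P.ne_bot)

theorem count_idealOf (n : HeightOneSpectrum B →₀ ℤ) (P : HeightOneSpectrum B) :
    count L P (idealOf L n) = n P :=
  count_finsuppProd L P n

theorem mem_idealOf_iff (n : HeightOneSpectrum B →₀ ℤ) (x : L) :
    x ∈ idealOf L n ↔ ∀ P : HeightOneSpectrum B, P.valuation L x ≤ WithZero.exp (-(n P)) := by
  rw [mem_iff_valuation L (idealOf_ne_zero L n)]
  simp only [count_idealOf]

theorem ideg_idealOf (n : HeightOneSpectrum B →₀ ℤ) :
    ideg L (idealOf L n) = n.sum (fun _ m => m) := by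
  unfold ideg
  simp only [count_idealOf]
  rw [Finsupp.sum]
  refine finsum_eq_sum_of_support_subset _ ?_
  intro P hP
  rw [Function.mem_support] at hP
  simpa using hP

theorem idealOf_eq {n : HeightOneSpectrum B →₀ ℤ} {I : FractionalIdeal B⁰ L} (hI : I ≠ 0)
    (h : ∀ P, count L P I = n P) : I = idealOf L n :=
  eq_of_count_eq L hI (idealOf_ne_zero L n) fun P => by rw [h P, count_idealOf]

end IdealOf

section Lattice

variable {R K F : Type*} [CommRing R] [IsDomain R] [Field K] [Field F] [Algebra R K]
  [IsFractionRing R K] [Algebra K F] [Algebra R F] [IsScalarTower R K F]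
  [FiniteDimensional K F] [IsIntegrallyClosed R] [IsNoetherianRing R] [Algebra.IsSeparable K F]

/-- A nonzero fractional ideal of the integral closure is an `R`-lattice. -/
theorem isLattice_fractionalIdeal (I : FractionalIdeal (↥(integralClosure R F))⁰ F) (hI : I ≠ 0) :
    IsLattice K ((I : Submodule ↥(integralClosure R F) F).restrictScalars R) where
  fg := by
    haveI hfin : Module.Finite R ↥(integralClosure R F) :=
      IsIntegralClosure.finite R K F (integralClosure R F)
    haveI hnoeth : IsNoetherianRing ↥(integralClosure R F) :=
      IsIntegralClosure.isNoetherianRing R K F (integralClosure R F)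
    have hfg : (I : Submodule ↥(integralClosure R F) F).FG :=
      fg_of_isNoetherianRing le_rfl I
    exact hfg.restrictScalars
  span_eq_top := by
    rw [eq_top_iff]
    intro x _
    obtain ⟨a, haI, ha0⟩ : ∃ a ∈ I, a ≠ 0 := by
      by_contra hcon
      push Not at hcon
      apply hI
      rw [eq_zero_iff]
      exact hcon
    -- `x / a ∈ span K B`
    have hB : (x / a) ∈ Submodule.span K
        ((Subalgebra.toSubmodule (integralClosure R F) : Submodule R F) : Set F) := by
      rw [(isLattice_integralClosure (R := R) (K := K) (F := F)).span_eq_top]
      trivial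
    -- multiplication by `a`
    let μ : F →ₗ[K] F := LinearMap.mulLeft K a
    have hsub : ((Subalgebra.toSubmodule (integralClosure R F) : Submodule R F) : Set F) ⊆
        ((Submodule.span K
          (((I : Submodule ↥(integralClosure R F) F).restrictScalars R : Submodule R F) : Set F)).comap μ
          : Submodule K F) := by
      intro b hb
      simp only [Submodule.comap_coe, Set.mem_preimage, SetLike.mem_coe]
      apply Submodule.subset_span
      show a * b ∈ I
      have hb' : b ∈ integralClosure R F := hb
      have : a * b = (⟨b, hb'⟩ : ↥(integralClosure R F)) • a := by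
        rw [Algebra.smul_def, mul_comm]; rfl
      rw [this]
      exact Submodule.smul_mem _ _ haI
    have := (Submodule.span_le.mpr hsub) hB
    simp only [Submodule.mem_comap] at this
    have e : μ (x / a) = x := by
      show a * (x / a) = x
      field_simp
    rwa [e] at this

end Lattice

end RRD
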