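import Mathlib
import Fermat.Agent.RR.Field
import Fermat.Agent.RR.Bridge
import Fermat.Agent.RR.L6Main
import Fermat.Agent.RR.L6Place
import Fermat.Agent.RR.L6InfA
import Fermat.Agent.RR.L6InfW_helper2
import Fermat.Agent.RR.L6FreeMain
import Fermat.Agent.RR.L6FreeFin
import Fermat.Agent.S24.PlaceBasic

/-!
# RR-DIV (helper1), part 3: `Binf` in any characteristic, and the classification of places

Characteristic-free copies of `RR/L6InfB.lean`, `RR/L6InfC.lean` (prefix `h1f_`), then:

* `RRD.h1f_B_mem_of_not_mem` : a place with `y ∉ 𝒪_v` contains `Binf`;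
* `RRD.placeFin`, `RRD.placeInf`, `RRD.place_cases` : every place is `placeFin P` or `placeInf Q`;
* `RRD.h1f_count_inf` : `n - #{places over ∞} ≤ [Binf^* : Binf]`.
-/

set_option autoImplicit false
set_option linter.style.longLine false
set_option linter.unusedSectionVars false
set_option linter.style.haveILetI false
set_option linter.unusedVariables false
set_option linter.deprecated false

noncomputable section

namespace RRD

open Module Polynomial UniqueFactorizationMonoid IsDedekindDomain AlgebraicCurve IntermediateField RRalg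

section Inf


variable (k : Type*) [Field k] [IsAlgClosed k] (F : Type*) [Field F]
  [Algebra (RatFunc k) F] [Algebra k F] [IsScalarTower k (RatFunc k) F] [Algebra k[X] F]
  [IsScalarTower k[X] (RatFunc k) F] [IsScalarTower k k[X] F]
  [FiniteDimensional (RatFunc k) F] [Algebra.IsSeparable (RatFunc k) F]

theorem h1f_algebraMap_Rinf_injective : Function.Injective (algebraMap (Rinf k) F) := by
  rw [IsScalarTower.algebraMap_eq (Rinf k) (RatFunc k) F]
  exact (algebraMap (RatFunc k) F).injective.comp (IsFractionRing.injective (Rinf k) (RatFunc k))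

theorem h1f_isTorsionFree_Rinf : IsTorsionFree (Rinf k) F :=
  isTorsionFree_iff_algebraMap_injective.mpr (h1f_algebraMap_Rinf_injective k F)

theorem h1f_isTorsionFree_B : IsTorsionFree (Rinf k) ↥(integralClosure (Rinf k) F) :=
  have := h1f_isTorsionFree_Rinf k F
  inferInstance

theorem h1f_isDedekindDomain_B : IsDedekindDomain ↥(integralClosure (Rinf k) F) :=
  integralClosure.isDedekindDomain (Rinf k) (RatFunc k) F

theorem h1f_isFractionRing_B : IsFractionRing ↥(integralClosure (Rinf k) F) F :=
  integralClosure.isFractionRing_of_finite_extension (A := Rinf k) (RatFunc k) F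

theorem h1f_tower_ABF : IsScalarTower (Rinf k) ↥(integralClosure (Rinf k) F) F :=
  IsScalarTower.of_algebraMap_eq (fun _ => rfl)

attribute [local instance] h1f_isTorsionFree_B h1f_isDedekindDomain_B h1f_isFractionRing_B
  h1f_tower_ABF

theorem h1f_one_eq_Binf :
    (1 : Submodule ↥(integralClosure (Rinf k) F) F).restrictScalars (Rinf k) = Binf k F := by
  ext x
  rw [Submodule.restrictScalars_mem, Submodule.mem_one]
  constructor
  · rintro ⟨b, rfl⟩
    exact b.2
  · intro hx
    exact ⟨⟨x, hx⟩, rfl⟩

/-- **L6 (inf), colength form**. -/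
theorem h1f_relIndex_Binf :
    relIndex (sk (k := k) ((Algebra.traceForm (RatFunc k) F).dualSubmodule (Binf k F)))
        (sk (k := k) (Binf k F))
      = Multiset.card (normalizedFactors
          (differentIdeal (Rinf k) ↥(integralClosure (Rinf k) F))) := by
  have h := H27L6.h27f_relIndex_traceDual k (Rinf k) (RatFunc k) F ↥(integralClosure (Rinf k) F)
    (fun p hp hp0 => h1i_hA p hp hp0)
  rw [h1f_one_eq_Binf] at h
  exact h





theorem h1f_algebraMap_Xinv : algebraMap (Rinf k) F (Xinv k) = (yGen k F)⁻¹ := by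
  rw [IsScalarTower.algebraMap_apply (Rinf k) (RatFunc k) F]
  show algebraMap (RatFunc k) F ((RatFunc.X : RatFunc k)⁻¹) = _
  rw [map_inv₀]
  rfl

theorem h1f_map_span_ne_bot :
    Ideal.map (algebraMap (Rinf k) ↥(integralClosure (Rinf k) F)) (Ideal.span {Xinv k}) ≠ ⊥ := by
  rw [Ideal.map_span, Set.image_singleton, Ne, Ideal.span_singleton_eq_bot]
  intro h
  have hinj : Function.Injective (algebraMap (Rinf k) ↥(integralClosure (Rinf k) F)) :=
    FaithfulSMul.algebraMap_injective _ _
  exact Xinv_ne_zero (hinj (by rw [h, map_zero]))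

/-- `dim_k B ⧸ 𝔪 B = [F : k(y)]`. -/
theorem h1f_finrank_quot_map :
    finrank k (↥(integralClosure (Rinf k) F) ⧸
      Ideal.map (algebraMap (Rinf k) ↥(integralClosure (Rinf k) F)) (Ideal.span {Xinv k}))
      = finrank (RatFunc k) F := by
  haveI hmax : (Ideal.span {Xinv k} : Ideal (Rinf k)).IsMaximal := h1i_span_Xinv_isMaximal
  haveI hfin : Module.Finite (Rinf k) ↥(integralClosure (Rinf k) F) :=
    H27L6.h27_finite_AB (Rinf k) (RatFunc k) F ↥(integralClosure (Rinf k) F)
  have h1 := Ideal.finrank_quotient_map (R := Rinf k) (S := ↥(integralClosure (Rinf k) F))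
    (Ideal.span {Xinv k}) (RatFunc k) F
  rw [← h1]
  have hsurj : Function.Surjective (algebraMap k (Rinf k ⧸ (Ideal.span {Xinv k} : Ideal (Rinf k)))) :=
    h1i_hA _ hmax.isPrime h1i_span_Xinv_ne_bot
  have hnontriv : Nontrivial (Rinf k ⧸ (Ideal.span {Xinv k} : Ideal (Rinf k))) :=
    Ideal.Quotient.nontrivial_iff.mpr hmax.ne_top
  have hinj : Function.Injective (algebraMap k (Rinf k ⧸ (Ideal.span {Xinv k} : Ideal (Rinf k)))) :=
    (algebraMap k _).injective
  let i : k ≃+* (Rinf k ⧸ (Ideal.span {Xinv k} : Ideal (Rinf k))) :=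
    RingEquiv.ofBijective (algebraMap k _) ⟨hinj, hsurj⟩
  refine Algebra.finrank_eq_of_equiv_equiv i (RingEquiv.refl _) ?_
  ext c
  show algebraMap (Rinf k ⧸ (Ideal.span {Xinv k} : Ideal (Rinf k)))
      (↥(integralClosure (Rinf k) F) ⧸ Ideal.map (algebraMap (Rinf k)
        ↥(integralClosure (Rinf k) F)) (Ideal.span {Xinv k}))
      (algebraMap k (Rinf k ⧸ (Ideal.span {Xinv k} : Ideal (Rinf k))) c)
    = algebraMap k (↥(integralClosure (Rinf k) F) ⧸ Ideal.map (algebraMap (Rinf k)
        ↥(integralClosure (Rinf k) F)) (Ideal.span {Xinv k})) c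
  rw [IsScalarTower.algebraMap_apply k (Rinf k) (Rinf k ⧸ (Ideal.span {Xinv k} : Ideal (Rinf k))),
    Ideal.Quotient.algebraMap_eq, Ideal.Quotient.algebraMap_quotient_map_quotient,
    IsScalarTower.algebraMap_apply k ↥(integralClosure (Rinf k) F)
      (↥(integralClosure (Rinf k) F) ⧸ Ideal.map (algebraMap (Rinf k)
        ↥(integralClosure (Rinf k) F)) (Ideal.span {Xinv k})),
    Ideal.Quotient.algebraMap_eq,
    ← IsScalarTower.algebraMap_apply k (Rinf k) ↥(integralClosure (Rinf k) F)]

theorem h1f_card_factors_map :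
    Multiset.card (normalizedFactors
      (Ideal.map (algebraMap (Rinf k) ↥(integralClosure (Rinf k) F)) (Ideal.span {Xinv k})))
      = finrank (RatFunc k) F := by
  have hres := H27L6.h27f_hres k (Rinf k) (RatFunc k) F ↥(integralClosure (Rinf k) F)
    (fun p hp hp0 => h1i_hA p hp hp0)
  rw [← (H27L6.h27_finrank_quot_eq_card k hres _ (h1f_map_span_ne_bot k F)).2,
    h1f_finrank_quot_map]

theorem h1f_XinvB_mem (P : HeightOneSpectrum ↥(integralClosure (Rinf k) F)) :
    algebraMap (Rinf k) ↥(integralClosure (Rinf k) F) (Xinv k) ∈ P.asIdeal := by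
  have hunder : P.asIdeal.under (Rinf k) = Ideal.span {Xinv k} :=
    h1i_prime_eq _ inferInstance
      (H27L6.h27_under_ne_bot (Rinf k) F ↥(integralClosure (Rinf k) F) P.asIdeal P.ne_bot)
  have : Xinv k ∈ P.asIdeal.under (Rinf k) := by
    rw [hunder]; exact Ideal.mem_span_singleton_self _
  exact this

theorem h1f_XinvB_ne_zero :
    algebraMap (Rinf k) ↥(integralClosure (Rinf k) F) (Xinv k) ≠ 0 := by
  intro h
  have hinj : Function.Injective (algebraMap (Rinf k) ↥(integralClosure (Rinf k) F)) :=
    FaithfulSMul.algebraMap_injective _ _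
  exact Xinv_ne_zero (hinj (by rw [h, map_zero]))

theorem h1f_placeOf_ord_pos (P : HeightOneSpectrum ↥(integralClosure (Rinf k) F)) :
    0 < (H27L6.h27_placeOf (F := F) k ↥(integralClosure (Rinf k) F) P).ord (yGen k F)⁻¹ := by
  have h := (H27L6.h27_placeOf_ord_pos_iff (F := F) k ↥(integralClosure (Rinf k) F) P
    (h1f_XinvB_ne_zero k F)).mpr (h1f_XinvB_mem k F P)
  have e : algebraMap ↥(integralClosure (Rinf k) F) F
      (algebraMap (Rinf k) ↥(integralClosure (Rinf k) F) (Xinv k)) = (yGen k F)⁻¹ := by
    rw [← IsScalarTower.algebraMap_apply (Rinf k) ↥(integralClosure (Rinf k) F) F,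
      h1f_algebraMap_Xinv]
  rwa [e] at h

/-! ### places over infinity contain `Binf` -/

/-- A place whose valuation ring does not contain `y` contains the image of `Rinf`. -/
theorem h1f_Rinf_mem_of_not_mem (v : Place k F) (hy : yGen k F ∉ v.toValuationSubring)
    (f : Rinf k) : algebraMap (Rinf k) F f ∈ v.toValuationSubring := by
  rw [RH24.h20_mem_iff_adicValuation_le_one]
  refine valInf_le_one v.adicValuation (fun c => ?_) ?_ f
  · exact (RH24.h20_mem_iff_adicValuation_le_one v _).mp (v.algebraMap_mem' c)
  · rw [RH24.h20_mem_iff_adicValuation_le_one] at hy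
    exact not_le.mp hy

/-- A place whose valuation ring does not contain `y` contains `Binf`. -/
theorem h1f_B_mem_of_not_mem (v : Place k F) (hy : yGen k F ∉ v.toValuationSubring)
    (b : ↥(integralClosure (Rinf k) F)) :
    algebraMap ↥(integralClosure (Rinf k) F) F b ∈ v.toValuationSubring := by
  let g : Rinf k →+* v.toValuationSubring :=
    (algebraMap (Rinf k) F).codRestrict v.toValuationSubring.toSubring
      (h1f_Rinf_mem_of_not_mem k F v hy)
  let _ : Algebra (Rinf k) v.toValuationSubring := g.toAlgebra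
  have : IsScalarTower (Rinf k) v.toValuationSubring F :=
    IsScalarTower.of_algebraMap_eq fun _ => rfl
  have hb : IsIntegral (Rinf k) (algebraMap ↥(integralClosure (Rinf k) F) F b) := b.2
  have hb' : IsIntegral v.toValuationSubring (algebraMap ↥(integralClosure (Rinf k) F) F b) :=
    hb.tower_top
  obtain ⟨c, hc⟩ := (IsIntegrallyClosed.isIntegral_iff (R := v.toValuationSubring) (K := F)).mp hb'
  rw [← hc]
  exact c.2

end Inf

/-! ### residue degree one -/

section Deg

variable (k : Type*) [Field k] {F : Type*} [Field F] [Algebra k F]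
  (B : Type*) [CommRing B] [IsDedekindDomain B] [Algebra B F] [IsFractionRing B F]
  [Algebra k B] [IsScalarTower k B F]

/-- If `dim_k B ⧸ P = 1`, every element of `B` is congruent to a constant modulo `P`. -/
theorem exists_const_sub_mem (P : Ideal B) (hP : P ≠ ⊤) (h1 : finrank k (B ⧸ P) = 1) (b : B) :
    ∃ c : k, b - algebraMap k B c ∈ P := by
  have hne : (1 : B ⧸ P) ≠ 0 := by
    intro h
    rw [← map_one (Ideal.Quotient.mk P), Ideal.Quotient.eq_zero_iff_mem] at h
    exact hP ((Ideal.eq_top_iff_one P).mpr h)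
  obtain ⟨c, hc⟩ := (finrank_eq_one_iff_of_nonzero' (1 : B ⧸ P) hne).mp h1 (Ideal.Quotient.mk P b)
  refine ⟨c, ?_⟩
  rw [← Ideal.Quotient.eq_zero_iff_mem, map_sub, ← hc, Algebra.smul_def, mul_one]
  rw [sub_eq_zero]
  rfl

/-- **Residue degree one** for the place of a prime with residue field `k`. -/
theorem placeOf_deg (P : HeightOneSpectrum B) (h1 : finrank k (B ⧸ P.asIdeal) = 1) :
    (H27L6.h27_placeOf (F := F) k B P).deg = 1 := by
  set v := H27L6.h27_placeOf (F := F) k B P with hv
  rw [Place.deg]
  apply (Subalgebra.bot_eq_top_iff_finrank_eq_one (F := k) (E := v.ResidueField)).1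
  refine le_antisymm bot_le ?_
  intro x _
  obtain ⟨u, rfl⟩ := IsLocalRing.residue_surjective x
  have hu : P.valuation F (u : F) ≤ 1 := by
    rw [← H27L6.h27_placeOf_adicValuation (F := F) k B P]
    exact (RH24.h20_mem_iff_adicValuation_le_one v _).mp u.2
  obtain ⟨a, ha⟩ := P.exists_valuation_sub_lt_of_integer (K := F) hu 1
  obtain ⟨c, hc⟩ := exists_const_sub_mem k B P.asIdeal P.isPrime.ne_top h1 a
  have hc' : P.valuation F (algebraMap B F (a - algebraMap k B c)) < 1 :=
    (P.valuation_lt_one_iff_mem (K := F) _).mpr hc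
  have hkey : P.valuation F ((u : F) - algebraMap k F c) < 1 := by
    have e : (u : F) - algebraMap k F c
        = algebraMap B F (a - algebraMap k B c) - (algebraMap B F a - (u : F)) := by
      rw [map_sub, ← IsScalarTower.algebraMap_apply k B F]
      ring
    rw [e]
    refine Valuation.map_sub_lt _ hc' ?_
    simpa using ha
  rw [Algebra.mem_bot]
  refine ⟨c, ?_⟩
  have h3 : IsLocalRing.residue v.toValuationSubring (u - algebraMap k v.toValuationSubring c)
      = 0 := by
    rw [IsLocalRing.residue_eq_zero_iff, H27L6.h27_mem_maximalIdeal_iff,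
      H27L6.h27_placeOf_adicValuation (F := F) k B P]
    exact hkey
  rw [map_sub, sub_eq_zero] at h3
  rw [h3]
  rfl

end Deg

/-! ### classification of the places -/

section Classify

variable (k : Type*) [Field k] [IsAlgClosed k] (F : Type*) [Field F]
  [Algebra (RatFunc k) F] [Algebra k F] [IsScalarTower k (RatFunc k) F] [Algebra k[X] F]
  [IsScalarTower k[X] (RatFunc k) F] [IsScalarTower k k[X] F]
  [FiniteDimensional (RatFunc k) F] [Algebra.IsSeparable (RatFunc k) F]

attribute [local instance] h1f_isTorsionFree_B h1f_isDedekindDomain_B h1f_isFractionRing_B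
  h1f_tower_ABF
attribute [local instance] H27L6.h27f_isTorsionFree_B H27L6.h27f_isDedekindDomain_B
  H27L6.h27f_isFractionRing_B

/-- Residue fields of `Bfin` are `k`. -/
theorem hres_fin (P : Ideal ↥(integralClosure k[X] F)) (hPp : P.IsPrime) (hP : P ≠ ⊥) :
    Module.Finite k (↥(integralClosure k[X] F) ⧸ P) ∧
      finrank k (↥(integralClosure k[X] F) ⧸ P) = 1 :=
  H27L6.h27f_hres k k[X] (RatFunc k) F ↥(integralClosure k[X] F) (H27L6.h27_hA_poly k) P hPp hP

/-- Residue fields of `Binf` are `k`. -/
theorem hres_inf (P : Ideal ↥(integralClosure (Rinf k) F)) (hPp : P.IsPrime) (hP : P ≠ ⊥) :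
    Module.Finite k (↥(integralClosure (Rinf k) F) ⧸ P) ∧
      finrank k (↥(integralClosure (Rinf k) F) ⧸ P) = 1 :=
  H27L6.h27f_hres k (Rinf k) (RatFunc k) F ↥(integralClosure (Rinf k) F)
    (fun p hp hp0 => h1i_hA p hp hp0) P hPp hP

/-- The place of a prime of `Bfin`. -/
def placeFin (P : HeightOneSpectrum ↥(integralClosure k[X] F)) : Place k F :=
  H27L6.h27_placeOf (F := F) k ↥(integralClosure k[X] F) P

/-- The place of a prime of `Binf`. -/
def placeInf (Q : HeightOneSpectrum ↥(integralClosure (Rinf k) F)) : Place k F :=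
  H27L6.h27_placeOf (F := F) k ↥(integralClosure (Rinf k) F) Q

theorem placeFin_injective : Function.Injective (placeFin k F) :=
  H27L6.h27_placeOf_injective (F := F) k ↥(integralClosure k[X] F)

theorem placeInf_injective : Function.Injective (placeInf k F) :=
  H27L6.h27_placeOf_injective (F := F) k ↥(integralClosure (Rinf k) F)

theorem placeFin_adicValuation (P : HeightOneSpectrum ↥(integralClosure k[X] F)) (f : F) :
    (placeFin k F P).adicValuation f = P.valuation F f :=
  H27L6.h27_placeOf_adicValuation (F := F) k ↥(integralClosure k[X] F) P f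

theorem placeInf_adicValuation (Q : HeightOneSpectrum ↥(integralClosure (Rinf k) F)) (f : F) :
    (placeInf k F Q).adicValuation f = Q.valuation F f :=
  H27L6.h27_placeOf_adicValuation (F := F) k ↥(integralClosure (Rinf k) F) Q f

theorem placeFin_deg (P : HeightOneSpectrum ↥(integralClosure k[X] F)) :
    (placeFin k F P).deg = 1 :=
  placeOf_deg k ↥(integralClosure k[X] F) P (hres_fin k F P.asIdeal P.isPrime P.ne_bot).2

theorem placeInf_deg (Q : HeightOneSpectrum ↥(integralClosure (Rinf k) F)) :
    (placeInf k F Q).deg = 1 :=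
  placeOf_deg k ↥(integralClosure (Rinf k) F) Q (hres_inf k F Q.asIdeal Q.isPrime Q.ne_bot).2

theorem yGen_ne_zero : yGen k F ≠ 0 := by
  intro h
  have := transcendental_yGen k F
  rw [h] at this
  exact this (isAlgebraic_zero)

theorem y_mem_placeFin (P : HeightOneSpectrum ↥(integralClosure k[X] F)) :
    yGen k F ∈ (placeFin k F P).toValuationSubring := by
  have h := H27L6.h27_mem_placeOf (F := F) k ↥(integralClosure k[X] F) P
    (algebraMap k[X] ↥(integralClosure k[X] F) X)
  rw [← IsScalarTower.algebraMap_apply k[X] ↥(integralClosure k[X] F) F,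
    H27L6.h27f_algebraMap_poly_eq, aeval_X] at h
  exact h

theorem y_not_mem_placeInf (Q : HeightOneSpectrum ↥(integralClosure (Rinf k) F)) :
    yGen k F ∉ (placeInf k F Q).toValuationSubring := by
  intro h
  have h1 := h1f_placeOf_ord_pos k F Q
  rw [Place.ord_inv] at h1
  have h2 := RH24.h20_ord_nonneg_of_mem (placeInf k F Q) h
  have h3 : (H27L6.h27_placeOf (F := F) k ↥(integralClosure (Rinf k) F) Q).ord (yGen k F)
      = (placeInf k F Q).ord (yGen k F) := rfl
  rw [h3] at h1
  omega

theorem placeFin_ne_placeInf (P : HeightOneSpectrum ↥(integralClosure k[X] F))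
    (Q : HeightOneSpectrum ↥(integralClosure (Rinf k) F)) : placeFin k F P ≠ placeInf k F Q := by
  intro h
  exact y_not_mem_placeInf k F Q (h ▸ y_mem_placeFin k F P)

theorem exists_placeFin (v : Place k F) (hy : yGen k F ∈ v.toValuationSubring) :
    ∃ P, placeFin k F P = v :=
  H27L6.h27_exists_placeOf_eq k ↥(integralClosure k[X] F) v (H27L6.h27f_B_mem_of_mem k F v hy)

theorem exists_placeInf (v : Place k F) (hy : yGen k F ∉ v.toValuationSubring) :
    ∃ Q, placeInf k F Q = v :=
  H27L6.h27_exists_placeOf_eq k ↥(integralClosure (Rinf k) F) v (h1f_B_mem_of_not_mem k F v hy)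

/-- **Classification**: every place is finite or infinite. -/
theorem place_cases (v : Place k F) :
    (∃ P, placeFin k F P = v) ∨ (∃ Q, placeInf k F Q = v) := by
  by_cases hy : yGen k F ∈ v.toValuationSubring
  · exact Or.inl (exists_placeFin k F v hy)
  · exact Or.inr (exists_placeInf k F v hy)

/-- **Every place has degree one.** -/
theorem place_deg (v : Place k F) : v.deg = 1 := by
  rcases place_cases k F v with ⟨P, rfl⟩ | ⟨Q, rfl⟩
  · exact placeFin_deg k F P
  · exact placeInf_deg k F Q

/-- There are finitely many primes of `Binf`. -/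
theorem finite_primes_inf : Finite (HeightOneSpectrum ↥(integralClosure (Rinf k) F)) := by
  have hfin := Ideal.finite_factors (h1f_map_span_ne_bot k F)
  have hall : ∀ Q : HeightOneSpectrum ↥(integralClosure (Rinf k) F),
      Q ∈ {Q : HeightOneSpectrum ↥(integralClosure (Rinf k) F) | Q.asIdeal ∣
        Ideal.map (algebraMap (Rinf k) ↥(integralClosure (Rinf k) F)) (Ideal.span {Xinv k})} := by
    intro Q
    rw [Set.mem_setOf_eq, Ideal.dvd_iff_le, Ideal.map_span, Set.image_singleton,
      Ideal.span_singleton_le_iff_mem]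
    exact h1f_XinvB_mem k F Q
  exact Set.finite_univ_iff.mp (hfin.subset fun Q _ => hall Q)

/-- The places over infinity are the places of the primes of `Binf`. -/
theorem ord_inv_pos_iff (v : Place k F) :
    0 < v.ord (yGen k F)⁻¹ ↔ yGen k F ∉ v.toValuationSubring := by
  rw [Place.ord_inv, RH24.h20_mem_iff_ord_nonneg v (yGen_ne_zero k F)]
  omega

theorem finite_places_inf : Finite {v : Place k F // 0 < v.ord (yGen k F)⁻¹} := by
  haveI := finite_primes_inf k F
  let f : HeightOneSpectrum ↥(integralClosure (Rinf k) F) →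
      {v : Place k F // 0 < v.ord (yGen k F)⁻¹} := fun Q =>
    ⟨placeInf k F Q, (ord_inv_pos_iff k F _).mpr (y_not_mem_placeInf k F Q)⟩
  have hf : Function.Surjective f := by
    rintro ⟨v, hv⟩
    obtain ⟨Q, hQ⟩ := exists_placeInf k F v ((ord_inv_pos_iff k F v).mp hv)
    exact ⟨Q, Subtype.ext hQ⟩
  exact Finite.of_surjective f hf

/-- **COUNT-local at infinity**, any characteristic. -/
theorem h1f_count_inf :
    ((Module.finrank (RatFunc k) F : ℕ) : ℤ)
        - Nat.card {v : Place k F // 0 < v.ord (yGen k F)⁻¹}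
      ≤ relIndex (sk (k := k) ((Algebra.traceForm (RatFunc k) F).dualSubmodule (Binf k F)))
          (sk (k := k) (Binf k F)) := by
  classical
  rw [h1f_relIndex_Binf]
  set M := normalizedFactors
    (Ideal.map (algebraMap (Rinf k) ↥(integralClosure (Rinf k) F)) (Ideal.span {Xinv k})) with hMdef
  set D := normalizedFactors (differentIdeal (Rinf k) ↥(integralClosure (Rinf k) F)) with hDdef
  have hM : Multiset.card M = finrank (RatFunc k) F := h1f_card_factors_map k F
  have hprime : ∀ P ∈ M, ∃ P' : HeightOneSpectrum ↥(integralClosure (Rinf k) F),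
      P'.asIdeal = P := by
    intro P hP
    have hPprime : Prime P := prime_of_normalized_factor P hP
    exact ⟨⟨P, Ideal.isPrime_of_prime hPprime, hPprime.ne_zero⟩, rfl⟩
  -- (1) `M - M.dedup ≤ D`
  have h1 : M - M.dedup ≤ D := by
    rw [Multiset.le_iff_count]
    intro P
    rw [Multiset.count_sub]
    by_cases hP : P ∈ M
    · obtain ⟨P', rfl⟩ := hprime P hP
      have hc := H27L6.h27f_le_count_different (Rinf k) (RatFunc k) F
        ↥(integralClosure (Rinf k) F) P'
      have hunder : P'.asIdeal.under (Rinf k) = Ideal.span {Xinv k} :=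
        h1i_prime_eq _ inferInstance
          (H27L6.h27_under_ne_bot (Rinf k) F ↥(integralClosure (Rinf k) F) P'.asIdeal P'.ne_bot)
      rw [hunder] at hc
      rw [Multiset.count_dedup, if_pos hP]
      exact hc
    · rw [Multiset.count_eq_zero_of_notMem hP]
      simp
  -- (2) the distinct primes inject into the places over infinity
  have h2 : Multiset.card M.dedup ≤ Nat.card {v : Place k F // 0 < v.ord (yGen k F)⁻¹} := by
    haveI := finite_places_inf k F
    let f : {P // P ∈ M.toFinset} → {v : Place k F // 0 < v.ord (yGen k F)⁻¹} := fun P =>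
      ⟨H27L6.h27_placeOf (F := F) k ↥(integralClosure (Rinf k) F)
          (hprime P.1 (Multiset.mem_toFinset.mp P.2)).choose,
        h1f_placeOf_ord_pos k F _⟩
    have hf : Function.Injective f := by
      intro P Q hPQ
      have h3 := congrArg Subtype.val hPQ
      have h4 := H27L6.h27_placeOf_injective (F := F) k ↥(integralClosure (Rinf k) F) h3
      apply Subtype.ext
      rw [← (hprime P.1 (Multiset.mem_toFinset.mp P.2)).choose_spec,
        ← (hprime Q.1 (Multiset.mem_toFinset.mp Q.2)).choose_spec, h4]
    have h5 := Nat.card_le_card_of_injective f hf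
    have h6 : Nat.card {P // P ∈ M.toFinset} = Multiset.card M.dedup := by
      rw [Nat.card_eq_fintype_card, Fintype.card_coe]
      rfl
    rwa [h6] at h5
  have h3 : Multiset.card M - Multiset.card M.dedup ≤ Multiset.card D := by
    have := Multiset.card_le_card h1
    rwa [Multiset.card_sub (Multiset.dedup_le M)] at this
  have h4 : Multiset.card M.dedup ≤ Multiset.card M := Multiset.card_le_card (Multiset.dedup_le M)
  omega

end Classify

end RRD
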