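import Mathlib
import Fermat.Agent.RRD.IdealOf
import Fermat.Agent.RRD.Places
import Fermat.Agent.RR.L1c

/-!
# RR-DIV (helper1), part 5: `L(E)` and the Euler characteristic of a divisor

Setting of `RR/Field.lean`, `k` algebraically closed of any characteristic, `F / k(X)` finite
separable.

* `RRD.Ldiv k F E` : the Riemann-Roch space `L(E) = {f | ∀ v, v(f) ≤ exp (E v)}` (instance-free);
* `RRD.Afin`, `RRD.Ainf` : the `k`-spaces of the fractional ideals of `Bfin`, `Binf` attached to `E`;
* `RRD.Ldiv_eq` : `L(E) = Afin E ⊓ Ainf E`;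
* `RRD.chi_div` : `χ(Afin E, Ainf E) = deg E + 1 - g`, `g = h¹(Bfin, Binf)`;
* `RRD.riemann_ineq` : `deg E + 1 - g ≤ dim L(E)`.
-/

set_option autoImplicit false
set_option linter.style.longLine false
set_option linter.unusedSectionVars false
set_option linter.style.haveILetI false
set_option linter.unusedVariables false
set_option linter.deprecated false

noncomputable section

namespace RRD

open Module Polynomial UniqueFactorizationMonoid IsDedekindDomain AlgebraicCurve IntermediateField
  RRalg FractionalIdeal nonZeroDivisors Submodule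
open scoped WithZero

section LdivDef

variable (k : Type*) [Field k] (F : Type*) [Field F] [Algebra k F]

/-- The Riemann-Roch space `L(E)`. -/
def Ldiv (E : Divisor k F) : Submodule k F where
  carrier := {f | ∀ v : Place k F, v.adicValuation f ≤ WithZero.exp (E v)}
  zero_mem' := fun v => by simp
  add_mem' := fun {f g} hf hg v => (v.adicValuation.map_add f g).trans (max_le (hf v) (hg v))
  smul_mem' := fun c f hf v => by
    rw [Algebra.smul_def, map_mul]
    have hc : v.adicValuation (algebraMap k F c) ≤ 1 :=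
      (RH24.h20_mem_iff_adicValuation_le_one v _).mp (v.algebraMap_mem' c)
    calc v.adicValuation (algebraMap k F c) * v.adicValuation f
        ≤ 1 * v.adicValuation f := mul_le_mul_left hc _
      _ = v.adicValuation f := one_mul _
      _ ≤ _ := hf v

variable {k F}

theorem mem_Ldiv {E : Divisor k F} {f : F} :
    f ∈ Ldiv k F E ↔ ∀ v : Place k F, v.adicValuation f ≤ WithZero.exp (E v) := Iff.rfl

theorem mem_Ldiv_iff_ord {E : Divisor k F} {f : F} :
    f ∈ Ldiv k F E ↔ f = 0 ∨ ∀ v : Place k F, -E v ≤ v.ord f := by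
  rw [mem_Ldiv]
  rcases eq_or_ne f 0 with rfl | hf
  · simp
  · simp only [hf, false_or]
    refine forall_congr' fun v => ?_
    rw [RH24.h20_adicValuation_eq v hf, WithZero.exp_le_exp]
    omega

end LdivDef

section Main

variable (k : Type*) [Field k] [IsAlgClosed k] (F : Type*) [Field F]
  [Algebra (RatFunc k) F] [Algebra k F] [IsScalarTower k (RatFunc k) F] [Algebra k[X] F]
  [IsScalarTower k[X] (RatFunc k) F] [IsScalarTower k k[X] F]
  [FiniteDimensional (RatFunc k) F] [Algebra.IsSeparable (RatFunc k) F]

attribute [local instance] h1f_isTorsionFree_B h1f_isDedekindDomain_B h1f_isFractionRing_B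
  h1f_tower_ABF
attribute [local instance] H27L6.h27f_isTorsionFree_B H27L6.h27f_isDedekindDomain_B
  H27L6.h27f_isFractionRing_B

/-- The exponents of `E` at the finite places (with the sign of the ideal). -/
def expFin (E : Divisor k F) : HeightOneSpectrum ↥(integralClosure k[X] F) →₀ ℤ :=
  (-E).comapDomain (placeFin k F) (placeFin_injective k F).injOn

/-- The exponents of `E` at the infinite places (with the sign of the ideal). -/
def expInf (E : Divisor k F) : HeightOneSpectrum ↥(integralClosure (Rinf k) F) →₀ ℤ :=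
  (-E).comapDomain (placeInf k F) (placeInf_injective k F).injOn

theorem expFin_apply (E : Divisor k F) (P : HeightOneSpectrum ↥(integralClosure k[X] F)) :
    expFin k F E P = - E (placeFin k F P) := by
  simp [expFin, Finsupp.comapDomain_apply]

theorem expInf_apply (E : Divisor k F) (Q : HeightOneSpectrum ↥(integralClosure (Rinf k) F)) :
    expInf k F E Q = - E (placeInf k F Q) := by
  simp [expInf, Finsupp.comapDomain_apply]

/-- The fractional ideal of `Bfin` attached to `E`. -/
def idealFin (E : Divisor k F) : FractionalIdeal (↥(integralClosure k[X] F))⁰ F :=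
  idealOf F (expFin k F E)

/-- The fractional ideal of `Binf` attached to `E`. -/
def idealInf (E : Divisor k F) : FractionalIdeal (↥(integralClosure (Rinf k) F))⁰ F :=
  idealOf F (expInf k F E)

/-- The `k[X]`-lattice attached to `E`. -/
def Mfin (E : Divisor k F) : Submodule k[X] F :=
  ((idealFin k F E : FractionalIdeal (↥(integralClosure k[X] F))⁰ F) :
    Submodule ↥(integralClosure k[X] F) F).restrictScalars k[X]

/-- The `Rinf`-lattice attached to `E`. -/
def Minf (E : Divisor k F) : Submodule (Rinf k) F :=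
  ((idealInf k F E : FractionalIdeal (↥(integralClosure (Rinf k) F))⁰ F) :
    Submodule ↥(integralClosure (Rinf k) F) F).restrictScalars (Rinf k)

instance Mfin_isLattice (E : Divisor k F) : IsLattice (RatFunc k) (Mfin k F E) :=
  isLattice_fractionalIdeal (R := k[X]) (K := RatFunc k) (F := F) (idealFin k F E)
    (idealOf_ne_zero F _)

instance Minf_isLattice (E : Divisor k F) : IsLattice (RatFunc k) (Minf k F E) :=
  isLattice_fractionalIdeal (R := Rinf k) (K := RatFunc k) (F := F) (idealInf k F E)
    (idealOf_ne_zero F _)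

/-- The `k`-space of the finite part. -/
def Afin (E : Divisor k F) : Submodule k F := fsk k F (idealFin k F E)

/-- The `k`-space of the infinite part. -/
def Ainf (E : Divisor k F) : Submodule k F := fsk k F (idealInf k F E)

theorem sk_Mfin (E : Divisor k F) : sk (k := k) (Mfin k F E) = Afin k F E := rfl

theorem sk_Minf (E : Divisor k F) : sk (k := k) (Minf k F E) = Ainf k F E := rfl

theorem mem_Afin (E : Divisor k F) (x : F) :
    x ∈ Afin k F E ↔ ∀ P, (placeFin k F P).adicValuation x ≤ WithZero.exp (E (placeFin k F P)) := by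
  unfold Afin idealFin
  rw [mem_fsk, mem_idealOf_iff]
  refine forall_congr' fun P => ?_
  rw [expFin_apply, neg_neg, placeFin_adicValuation]

theorem mem_Ainf (E : Divisor k F) (x : F) :
    x ∈ Ainf k F E ↔ ∀ Q, (placeInf k F Q).adicValuation x ≤ WithZero.exp (E (placeInf k F Q)) := by
  unfold Ainf idealInf
  rw [mem_fsk, mem_idealOf_iff]
  refine forall_congr' fun Q => ?_
  rw [expInf_apply, neg_neg, placeInf_adicValuation]

/-- **`L(E)` is the intersection of the two lattices.** -/
theorem Ldiv_eq (E : Divisor k F) : Ldiv k F E = Afin k F E ⊓ Ainf k F E := by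
  ext x
  rw [Submodule.mem_inf, mem_Afin, mem_Ainf, mem_Ldiv]
  constructor
  · intro h
    exact ⟨fun P => h _, fun Q => h _⟩
  · rintro ⟨h1, h2⟩ v
    rcases place_cases k F v with ⟨P, rfl⟩ | ⟨Q, rfl⟩
    · exact h1 P
    · exact h2 Q

/-! ### the zero divisor -/

theorem idealFin_zero : idealFin k F (0 : Divisor k F) = 1 := by
  unfold idealFin idealOf
  have : expFin k F (0 : Divisor k F) = 0 := by
    ext P; rw [expFin_apply]; simp
  rw [this, Finsupp.prod_zero_index]

theorem idealInf_zero : idealInf k F (0 : Divisor k F) = 1 := by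
  unfold idealInf idealOf
  have : expInf k F (0 : Divisor k F) = 0 := by
    ext P; rw [expInf_apply]; simp
  rw [this, Finsupp.prod_zero_index]

theorem Afin_zero : Afin k F (0 : Divisor k F) = sk (k := k) (Bfin k F) := by
  unfold Afin
  rw [idealFin_zero]
  ext x
  rw [mem_fsk, mem_one_iff, Submodule.restrictScalars_mem]
  constructor
  · rintro ⟨b, rfl⟩
    exact b.2
  · intro hx
    exact ⟨⟨x, hx⟩, rfl⟩

theorem Ainf_zero : Ainf k F (0 : Divisor k F) = sk (k := k) (Binf k F) := by
  unfold Ainf
  rw [idealInf_zero]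
  ext x
  rw [mem_fsk, mem_one_iff, Submodule.restrictScalars_mem]
  constructor
  · rintro ⟨b, rfl⟩
    exact b.2
  · intro hx
    exact ⟨⟨x, hx⟩, rfl⟩

/-! ### the degree -/

theorem degree_eq_sum (E : Divisor k F) : Divisor.degree E = ∑ v ∈ E.support, E v := by
  unfold Divisor.degree
  rw [Finsupp.liftAddHom_apply, Finsupp.sum]
  refine Finset.sum_congr rfl fun v _ => ?_
  rw [AddMonoidHom.coe_mulRight, place_deg k F v]
  simp

open Classical in
theorem sum_expFin (E : Divisor k F) :
    (expFin k F E).sum (fun _ m => m)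
      = - ∑ v ∈ E.support.filter (fun v => yGen k F ∈ v.toValuationSubring), E v := by
  classical
  rw [Finsupp.sum, ← Finset.sum_neg_distrib]
  refine Finset.sum_bij (fun P _ => placeFin k F P) ?_ ?_ ?_ ?_
  · intro P hP
    rw [Finsupp.mem_support_iff, expFin_apply] at hP
    rw [Finset.mem_filter, Finsupp.mem_support_iff]
    exact ⟨fun h => hP (by rw [h, neg_zero]), y_mem_placeFin k F P⟩
  · intro P _ P' _ h
    exact placeFin_injective k F h
  · intro v hv
    rw [Finset.mem_filter, Finsupp.mem_support_iff] at hv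
    obtain ⟨P, rfl⟩ := exists_placeFin k F v hv.2
    refine ⟨P, ?_, rfl⟩
    rw [Finsupp.mem_support_iff, expFin_apply]
    intro h
    exact hv.1 (by omega)
  · intro P _
    rw [expFin_apply]

open Classical in
theorem sum_expInf (E : Divisor k F) :
    (expInf k F E).sum (fun _ m => m)
      = - ∑ v ∈ E.support.filter (fun v => ¬ yGen k F ∈ v.toValuationSubring), E v := by
  classical
  rw [Finsupp.sum, ← Finset.sum_neg_distrib]
  refine Finset.sum_bij (fun Q _ => placeInf k F Q) ?_ ?_ ?_ ?_
  · intro Q hQ
    rw [Finsupp.mem_support_iff, expInf_apply] at hQ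
    rw [Finset.mem_filter, Finsupp.mem_support_iff]
    exact ⟨fun h => hQ (by rw [h, neg_zero]), y_not_mem_placeInf k F Q⟩
  · intro Q _ Q' _ h
    exact placeInf_injective k F h
  · intro v hv
    rw [Finset.mem_filter, Finsupp.mem_support_iff] at hv
    obtain ⟨Q, rfl⟩ := exists_placeInf k F v hv.2
    refine ⟨Q, ?_, rfl⟩
    rw [Finsupp.mem_support_iff, expInf_apply]
    intro h
    exact hv.1 (by omega)
  · intro Q _
    rw [expInf_apply]

theorem sum_exp (E : Divisor k F) :
    (expFin k F E).sum (fun _ m => m) + (expInf k F E).sum (fun _ m => m)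
      = - Divisor.degree E := by
  classical
  rw [sum_expFin, sum_expInf, degree_eq_sum,
    ← Finset.sum_filter_add_sum_filter_not E.support (fun v => yGen k F ∈ v.toValuationSubring)]
  ring

/-! ### the Euler characteristic -/

/-- The genus attached to the model: `h¹(Bfin, Binf)`. -/
def genusAt : ℕ := h1 (sk (k := k) (Bfin k F)) (sk (k := k) (Binf k F))

theorem finPair_div (E : Divisor k F) : FinPair (Afin k F E) (Ainf k F E) := by
  rw [← sk_Mfin, ← sk_Minf]
  exact finPair_lattices _ _

theorem relIndex_Afin (E : Divisor k F) :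
    relIndex (Afin k F 0) (Afin k F E) = (expFin k F E).sum (fun _ m => m) := by
  have hc : Comm (Afin k F 0) (Afin k F E) := by
    rw [← sk_Mfin, ← sk_Mfin]
    exact comm_R0 _ _
  have h0 : Afin k F 0 = fsk k F (1 : FractionalIdeal (↥(integralClosure k[X] F))⁰ F) := by
    unfold Afin; rw [idealFin_zero]
  rw [h0] at hc ⊢
  unfold Afin at hc ⊢
  have hI : idealFin k F E ≠ 0 := idealOf_ne_zero F _
  rw [relIndex_one_fsk k F (hres_fin k F) hI hc]
  exact ideg_idealOf F _

theorem relIndex_Ainf (E : Divisor k F) :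
    relIndex (Ainf k F 0) (Ainf k F E) = (expInf k F E).sum (fun _ m => m) := by
  have hc : Comm (Ainf k F 0) (Ainf k F E) := by
    rw [← sk_Minf, ← sk_Minf]
    exact comm_Rinf _ _
  have h0 : Ainf k F 0 = fsk k F (1 : FractionalIdeal (↥(integralClosure (Rinf k) F))⁰ F) := by
    unfold Ainf; rw [idealInf_zero]
  rw [h0] at hc ⊢
  unfold Ainf at hc ⊢
  have hI : idealInf k F E ≠ 0 := idealOf_ne_zero F _
  rw [relIndex_one_fsk k F (hres_inf k F) hI hc]
  exact ideg_idealOf F _

/-- **The Euler characteristic of a divisor**: `χ(E) = deg E + 1 - g`. -/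
theorem chi_div (E : Divisor k F) :
    chi (Afin k F E) (Ainf k F E) = Divisor.degree E + 1 - genusAt k F := by
  have hc1 : Comm (Afin k F 0) (Afin k F E) := by
    rw [← sk_Mfin, ← sk_Mfin]
    exact comm_R0 _ _
  have hc2 : Comm (Ainf k F 0) (Ainf k F E) := by
    rw [← sk_Minf, ← sk_Minf]
    exact comm_Rinf _ _
  obtain ⟨hp1, e1⟩ := chi_comm_left hc1 (finPair_div k F 0)
  obtain ⟨hp2, e2⟩ := chi_comm_right hc2 hp1
  rw [e2, e1, relIndex_Afin, relIndex_Ainf]
  have hs := sum_exp k F E
  have h00 : chi (Afin k F 0) (Ainf k F 0) = 1 - genusAt k F := by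
    rw [Afin_zero, Ainf_zero]
    unfold chi genusAt
    rw [h0_Bfin_Binf]
    simp
  rw [h00]
  linarith

theorem finite_Ldiv (E : Divisor k F) : Module.Finite k ↥(Ldiv k F E) := by
  rw [Ldiv_eq]
  exact (finPair_div k F E).1

/-- **Riemann's inequality.** -/
theorem riemann_ineq (E : Divisor k F) :
    Divisor.degree E + 1 - genusAt k F ≤ (finrank k ↥(Ldiv k F E) : ℤ) := by
  have h := chi_div k F E
  unfold chi h0 at h
  rw [← Ldiv_eq] at h
  have h1 : (0 : ℤ) ≤ (RRalg.h1 (Afin k F E) (Ainf k F E) : ℤ) := Int.natCast_nonneg _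
  linarith

/-- The dimension formula with the index of speciality. -/
theorem finrank_Ldiv (E : Divisor k F) :
    (finrank k ↥(Ldiv k F E) : ℤ)
      = Divisor.degree E + 1 - genusAt k F + RRalg.h1 (Afin k F E) (Ainf k F E) := by
  have h := chi_div k F E
  unfold chi h0 at h
  rw [← Ldiv_eq] at h
  linarith

/-- Riemann's theorem, existence form: `L(E) ≠ 0` as soon as `deg E ≥ g`. -/
theorem exists_ne_zero_of_genus_le (E : Divisor k F) (hE : (genusAt k F : ℤ) ≤ Divisor.degree E) :
    ∃ f : F, f ≠ 0 ∧ ∀ v : Place k F, -E v ≤ v.ord f := by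
  have h := riemann_ineq k F E
  have hpos : 0 < finrank k ↥(Ldiv k F E) := by
    have : (0 : ℤ) < (finrank k ↥(Ldiv k F E) : ℤ) := by linarith
    exact_mod_cast this
  haveI := finite_Ldiv k F E
  obtain ⟨⟨f, hf⟩, hf0⟩ := (Module.finrank_pos_iff_exists_ne_zero (R := k)).mp hpos
  have hf0' : f ≠ 0 := fun h => hf0 (Subtype.ext h)
  refine ⟨f, hf0', ?_⟩
  rcases mem_Ldiv_iff_ord.mp hf with h | h
  · exact absurd h hf0'
  · exact h

end Main

end RRD
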