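import Mathlib
import Fermat.Agent.RRD.Lattice
import Fermat.Agent.RR.Bridge

/-!
# RR-DIV (helper1), part 6: Riemann's inequality, instance-free

`K` algebraically closed (any characteristic), `F / K` a field, `y : F` transcendental with
`F / K(y)` finite separable.

* `RRD.bridge_isSeparable` : transfer of separability to the `RatFunc K`-algebra structure;
* `RRD.genusY y hy` : the genus `h¹(Bfin, Binf)` computed in the model `y`;
* `RRD.riemann` : `deg v = 1`, `L(E)` finite-dimensional, `deg E + 1 - g ≤ dim L(E)`;
* `RRD.exists_ne_zero_of_le` : `g ≤ deg E → ∃ f ≠ 0, ∀ v, -E v ≤ ord_v f`.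
-/

set_option autoImplicit false
set_option linter.style.longLine false
set_option linter.unusedSectionVars false
set_option linter.style.haveILetI false
set_option linter.unusedVariables false

noncomputable section

namespace RRD

open Module Polynomial AlgebraicCurve IntermediateField RRalg

variable {K F : Type*} [Field K] [Field F] [Algebra K F]

/-- Separability transfers along `RatFunc K ≃ K(y)`. -/
theorem bridge_isSeparable (y : F) (hy : Transcendental K y) [Algebra.IsSeparable K⟮y⟯ F] :
    letI := bridgeRatAlgebra y hy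
    Algebra.IsSeparable (RatFunc K) F := by
  letI := bridgeRatAlgebra y hy
  haveI := bridge_tower_K_rat y hy
  have hyg : yGen K F = y := bridge_yGen y hy
  haveI : Algebra.IsSeparable K⟮yGen K F⟯ F := by rw [hyg]; infer_instance
  refine Algebra.IsSeparable.of_equiv_equiv (ratEquiv K F).symm (RingEquiv.refl F) ?_
  have h := ratEquiv_comp K F
  ext r
  have h2 := RingHom.congr_fun h ((ratEquiv K F).symm r)
  simp only [RingHom.comp_apply, RingEquiv.toRingHom_eq_coe, RingEquiv.coe_toRingHom,
    RingEquiv.apply_symm_apply, RingEquiv.refl_apply] at h2 ⊢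
  exact h2.symm

variable [IsAlgClosed K]

/-- The genus `h¹(Bfin, Binf)` in the model given by `y`. -/
def genusY (y : F) (hy : Transcendental K y) : ℕ :=
  letI := bridgePolyAlgebra (K := K) y
  letI := bridgeRatAlgebra y hy
  haveI := bridge_tower_K_rat y hy
  haveI := bridge_tower_K_poly (K := K) y
  haveI := bridge_tower_poly_rat y hy
  RRalg.h1 (sk (k := K) (Bfin K F)) (sk (k := K) (Binf K F))

theorem genusY_eq (y : F) (hy : Transcendental K y) :
    letI := bridgePolyAlgebra (K := K) y
    letI := bridgeRatAlgebra y hy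
    haveI := bridge_tower_K_rat y hy
    haveI := bridge_tower_K_poly (K := K) y
    haveI := bridge_tower_poly_rat y hy
    genusY y hy = RRalg.h1 (sk (k := K) (Bfin K F)) (sk (k := K) (Binf K F)) := rfl

/-- **Every place has degree one** (any characteristic). -/
theorem deg_eq_one (y : F) (hy : Transcendental K y) [FiniteDimensional K⟮y⟯ F]
    [Algebra.IsSeparable K⟮y⟯ F] (v : Place K F) : v.deg = 1 := by
  letI := bridgePolyAlgebra (K := K) y
  letI := bridgeRatAlgebra y hy
  haveI := bridge_tower_K_rat y hy
  haveI := bridge_tower_K_poly (K := K) y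
  haveI := bridge_tower_poly_rat y hy
  haveI := bridge_finiteDimensional y hy
  haveI := bridge_isSeparable y hy
  exact place_deg K F v

/-- `L(E)` is finite-dimensional. -/
theorem finite_Ldiv_of (y : F) (hy : Transcendental K y) [FiniteDimensional K⟮y⟯ F]
    [Algebra.IsSeparable K⟮y⟯ F] (E : Divisor K F) : Module.Finite K ↥(Ldiv K F E) := by
  letI := bridgePolyAlgebra (K := K) y
  letI := bridgeRatAlgebra y hy
  haveI := bridge_tower_K_rat y hy
  haveI := bridge_tower_K_poly (K := K) y
  haveI := bridge_tower_poly_rat y hy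
  haveI := bridge_finiteDimensional y hy
  haveI := bridge_isSeparable y hy
  exact finite_Ldiv K F E

/-- **Riemann's inequality** (any characteristic). -/
theorem riemann (y : F) (hy : Transcendental K y) [FiniteDimensional K⟮y⟯ F]
    [Algebra.IsSeparable K⟮y⟯ F] (E : Divisor K F) :
    Divisor.degree E + 1 - genusY y hy ≤ (finrank K ↥(Ldiv K F E) : ℤ) := by
  letI := bridgePolyAlgebra (K := K) y
  letI := bridgeRatAlgebra y hy
  haveI := bridge_tower_K_rat y hy
  haveI := bridge_tower_K_poly (K := K) y
  haveI := bridge_tower_poly_rat y hy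
  haveI := bridge_finiteDimensional y hy
  haveI := bridge_isSeparable y hy
  exact riemann_ineq K F E

/-- Riemann's theorem, existence form: `L(E) ≠ 0` as soon as `deg E ≥ g`. -/
theorem exists_ne_zero_of_le (y : F) (hy : Transcendental K y) [FiniteDimensional K⟮y⟯ F]
    [Algebra.IsSeparable K⟮y⟯ F] (E : Divisor K F) (hE : (genusY y hy : ℤ) ≤ Divisor.degree E) :
    ∃ f : F, f ≠ 0 ∧ ∀ v : Place K F, -E v ≤ v.ord f := by
  letI := bridgePolyAlgebra (K := K) y
  letI := bridgeRatAlgebra y hy
  haveI := bridge_tower_K_rat y hy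
  haveI := bridge_tower_K_poly (K := K) y
  haveI := bridge_tower_poly_rat y hy
  haveI := bridge_finiteDimensional y hy
  haveI := bridge_isSeparable y hy
  exact exists_ne_zero_of_genus_le K F E hE

/-- Riemann's theorem in the form used by the bounded-homomorphism lemma. -/
theorem riemann_exists (y : F) (hy : Transcendental K y) [FiniteDimensional K⟮y⟯ F]
    [Algebra.IsSeparable K⟮y⟯ F] :
    ∃ g : ℕ, ∀ E : Divisor K F, (g : ℤ) ≤ Divisor.degree E →
      ∃ f : F, f ≠ 0 ∧ ∀ v : Place K F, -E v ≤ v.ord f :=
  ⟨genusY y hy, fun E hE => exists_ne_zero_of_le y hy E hE⟩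

end RRD
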