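import Mathlib
import Fermat.Agent.RRD.Lattice
import Fermat.Agent.RRD.Riemann

/-!
# RR-DIV (helper1), part 7: principal divisors, any characteristic

* `RRD.chi_map` : `χ` is invariant under linear automorphisms;
* `RRD.divOf f` : the divisor of `f ≠ 0` (finite support), `RRD.divOf_apply`;
* `RRD.degree_divOf` : `deg (div f) = 0`;
* `RRD.Ldiv_eq_bot` : `L(E) = 0` if `deg E < 0`;
* `RRD.hasPrincipalDivisors y hy` : `HasPrincipalDivisors K F` (instance-free form).
-/

set_option autoImplicit false
set_option linter.style.longLine false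
set_option linter.unusedSectionVars false
set_option linter.style.haveILetI false
set_option linter.unusedVariables false
set_option linter.deprecated false

noncomputable section

namespace RRD

open Module Polynomial UniqueFactorizationMonoid IsDedekindDomain AlgebraicCurve IntermediateField
  RRalg FractionalIdeal nonZeroDivisors Submodule
open scoped WithZero

section LinearAlgebra

variable {k : Type*} [Field k] {V : Type*} [AddCommGroup V] [Module k V]

theorem h0_map (e : V ≃ₗ[k] V) (A B : Submodule k V) :
    h0 (A.map (e : V →ₗ[k] V)) (B.map (e : V →ₗ[k] V)) = h0 A B := by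
  unfold h0
  have : A.map (e : V →ₗ[k] V) ⊓ B.map (e : V →ₗ[k] V) = (A ⊓ B).map (e : V →ₗ[k] V) :=
    (Submodule.map_inf (e : V →ₗ[k] V) e.injective).symm
  rw [this]
  exact (e.submoduleMap (A ⊓ B)).finrank_eq.symm

theorem h1_map (e : V ≃ₗ[k] V) (A B : Submodule k V) :
    h1 (A.map (e : V →ₗ[k] V)) (B.map (e : V →ₗ[k] V)) = h1 A B := by
  unfold h1
  have : A.map (e : V →ₗ[k] V) ⊔ B.map (e : V →ₗ[k] V) = (A ⊔ B).map (e : V →ₗ[k] V) :=
    (Submodule.map_sup A B (e : V →ₗ[k] V)).symm
  rw [this]
  exact (Submodule.Quotient.equiv (A ⊔ B) ((A ⊔ B).map (e : V →ₗ[k] V)) e rfl).finrank_eq.symm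

theorem chi_map (e : V ≃ₗ[k] V) (A B : Submodule k V) :
    chi (A.map (e : V →ₗ[k] V)) (B.map (e : V →ₗ[k] V)) = chi A B := by
  unfold chi
  rw [h0_map, h1_map]

end LinearAlgebra

section Main

variable (k : Type*) [Field k] [IsAlgClosed k] (F : Type*) [Field F]
  [Algebra (RatFunc k) F] [Algebra k F] [IsScalarTower k (RatFunc k) F] [Algebra k[X] F]
  [IsScalarTower k[X] (RatFunc k) F] [IsScalarTower k k[X] F]
  [FiniteDimensional (RatFunc k) F] [Algebra.IsSeparable (RatFunc k) F]

attribute [local instance] h1f_isTorsionFree_B h1f_isDedekindDomain_B h1f_isFractionRing_B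
  h1f_tower_ABF
attribute [local instance] H27L6.h27f_isTorsionFree_B H27L6.h27f_isDedekindDomain_B
  H27L6.h27f_isFractionRing_B

theorem placeFin_ord (P : HeightOneSpectrum ↥(integralClosure k[X] F)) {f : F} (hf : f ≠ 0) :
    (placeFin k F P).ord f = count F P (spanSingleton (↥(integralClosure k[X] F))⁰ f) := by
  rw [Place.ord, placeFin_adicValuation, count_spanSingleton F P hf]

theorem placeInf_ord (Q : HeightOneSpectrum ↥(integralClosure (Rinf k) F)) {f : F} (hf : f ≠ 0) :
    (placeInf k F Q).ord f = count F Q (spanSingleton (↥(integralClosure (Rinf k) F))⁰ f) := by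
  rw [Place.ord, placeInf_adicValuation, count_spanSingleton F Q hf]

/-- A nonzero function has finitely many zeros and poles. -/
theorem finite_support_ord {f : F} (hf : f ≠ 0) :
    (Function.support fun v : Place k F => v.ord f).Finite := by
  have h1 := ideg_support_finite F (spanSingleton (↥(integralClosure k[X] F))⁰ f)
  haveI := finite_primes_inf k F
  have h2 : (Set.range (placeInf k F)).Finite := Set.finite_range _
  refine ((h1.image (placeFin k F)).union h2).subset ?_
  intro v hv
  rw [Function.mem_support] at hv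
  rcases place_cases k F v with ⟨P, rfl⟩ | ⟨Q, rfl⟩
  · left
    refine ⟨P, ?_, rfl⟩
    rw [Function.mem_support, ← placeFin_ord k F P hf]
    exact hv
  · right
    exact ⟨Q, rfl⟩

open Classical in
/-- The divisor of a function. -/
def divOf (f : F) : Divisor k F :=
  if hf : f = 0 then 0 else Finsupp.ofSupportFinite (fun v : Place k F => v.ord f)
    (finite_support_ord k F hf)

theorem divOf_apply {f : F} (hf : f ≠ 0) (v : Place k F) : divOf k F f v = v.ord f := by
  unfold divOf
  rw [dif_neg hf]
  rfl

/-- Multiplication by `f` maps `Afin E` onto `Afin (E - div f)`. -/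
theorem map_scale_Afin {f : F} (hf : f ≠ 0) (E : Divisor k F) :
    (Afin k F E).map (scaleEquiv k F f hf : F →ₗ[k] F) = Afin k F (E - divOf k F f) := by
  ext x
  rw [Submodule.mem_map, mem_Afin]
  constructor
  · rintro ⟨z, hz, rfl⟩ P
    rw [mem_Afin] at hz
    rw [LinearEquiv.coe_coe, scaleEquiv_apply, map_mul, Finsupp.sub_apply, divOf_apply k F hf,
      RH24.h20_adicValuation_eq _ hf, sub_eq_add_neg, add_comm, WithZero.exp_add]
    exact mul_le_mul_right (hz P) _
  · intro hx
    refine ⟨f⁻¹ * x, ?_, ?_⟩
    · rw [mem_Afin]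
      intro P
      have h := hx P
      rw [Finsupp.sub_apply, divOf_apply k F hf] at h
      rw [map_mul, map_inv₀, RH24.h20_adicValuation_eq _ hf, ← WithZero.exp_neg, neg_neg]
      calc WithZero.exp ((placeFin k F P).ord f) * (placeFin k F P).adicValuation x
          ≤ WithZero.exp ((placeFin k F P).ord f)
              * WithZero.exp (E (placeFin k F P) - (placeFin k F P).ord f) :=
            mul_le_mul_right h _
        _ = WithZero.exp (E (placeFin k F P)) := by
            rw [← WithZero.exp_add]; congr 1; ring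
    · rw [LinearEquiv.coe_coe, scaleEquiv_apply, ← mul_assoc, mul_inv_cancel₀ hf, one_mul]

/-- Multiplication by `f` maps `Ainf E` onto `Ainf (E - div f)`. -/
theorem map_scale_Ainf {f : F} (hf : f ≠ 0) (E : Divisor k F) :
    (Ainf k F E).map (scaleEquiv k F f hf : F →ₗ[k] F) = Ainf k F (E - divOf k F f) := by
  ext x
  rw [Submodule.mem_map, mem_Ainf]
  constructor
  · rintro ⟨z, hz, rfl⟩ P
    rw [mem_Ainf] at hz
    rw [LinearEquiv.coe_coe, scaleEquiv_apply, map_mul, Finsupp.sub_apply, divOf_apply k F hf,
      RH24.h20_adicValuation_eq _ hf, sub_eq_add_neg, add_comm, WithZero.exp_add]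
    exact mul_le_mul_right (hz P) _
  · intro hx
    refine ⟨f⁻¹ * x, ?_, ?_⟩
    · rw [mem_Ainf]
      intro P
      have h := hx P
      rw [Finsupp.sub_apply, divOf_apply k F hf] at h
      rw [map_mul, map_inv₀, RH24.h20_adicValuation_eq _ hf, ← WithZero.exp_neg, neg_neg]
      calc WithZero.exp ((placeInf k F P).ord f) * (placeInf k F P).adicValuation x
          ≤ WithZero.exp ((placeInf k F P).ord f)
              * WithZero.exp (E (placeInf k F P) - (placeInf k F P).ord f) :=
            mul_le_mul_right h _
        _ = WithZero.exp (E (placeInf k F P)) := by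
            rw [← WithZero.exp_add]; congr 1; ring
    · rw [LinearEquiv.coe_coe, scaleEquiv_apply, ← mul_assoc, mul_inv_cancel₀ hf, one_mul]

/-- `χ` only depends on the divisor class. -/
theorem chi_sub_divOf {f : F} (hf : f ≠ 0) (E : Divisor k F) :
    chi (Afin k F (E - divOf k F f)) (Ainf k F (E - divOf k F f))
      = chi (Afin k F E) (Ainf k F E) := by
  rw [← map_scale_Afin k F hf, ← map_scale_Ainf k F hf, chi_map]

/-- `h¹` only depends on the divisor class. -/
theorem h1_sub_divOf {f : F} (hf : f ≠ 0) (E : Divisor k F) :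
    h1 (Afin k F (E - divOf k F f)) (Ainf k F (E - divOf k F f))
      = h1 (Afin k F E) (Ainf k F E) := by
  rw [← map_scale_Afin k F hf, ← map_scale_Ainf k F hf, h1_map]

/-- `dim L` only depends on the divisor class. -/
theorem finrank_Ldiv_sub_divOf {f : F} (hf : f ≠ 0) (E : Divisor k F) :
    finrank k ↥(Ldiv k F (E - divOf k F f)) = finrank k ↥(Ldiv k F E) := by
  have := h0_map (scaleEquiv k F f hf) (Afin k F E) (Ainf k F E)
  rw [map_scale_Afin k F hf, map_scale_Ainf k F hf] at this
  unfold h0 at this
  rw [Ldiv_eq, Ldiv_eq]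
  exact this

/-- **Principal divisors have degree zero** (any characteristic). -/
theorem degree_divOf (f : F) : Divisor.degree (divOf k F f) = 0 := by
  rcases eq_or_ne f 0 with rfl | hf
  · unfold divOf
    rw [dif_pos rfl, map_zero]
  have h := chi_sub_divOf k F hf 0
  rw [chi_div, chi_div, map_sub, map_zero] at h
  linarith

theorem exists_divisor (f : F) (hf : f ≠ 0) :
    ∃ D : Divisor k F, (∀ v : Place k F, D v = v.ord f) ∧ Divisor.degree D = 0 :=
  ⟨divOf k F f, fun v => divOf_apply k F hf v, degree_divOf k F f⟩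

/-- The degree of an effective divisor is nonnegative. -/
theorem degree_nonneg_of_nonneg (E : Divisor k F) (hE : ∀ v, 0 ≤ E v) :
    0 ≤ Divisor.degree E := by
  rw [degree_eq_sum]
  exact Finset.sum_nonneg fun v _ => hE v

/-- **`L(E) = 0` for divisors of negative degree.** -/
theorem Ldiv_eq_bot (E : Divisor k F) (hE : Divisor.degree E < 0) : Ldiv k F E = ⊥ := by
  rw [eq_bot_iff]
  intro f hf
  rw [Submodule.mem_bot]
  by_contra hf0
  rcases mem_Ldiv_iff_ord.mp hf with h | h
  · exact hf0 h
  · have h1 : 0 ≤ Divisor.degree (E + divOf k F f) := by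
      apply degree_nonneg_of_nonneg
      intro v
      rw [Finsupp.add_apply, divOf_apply k F hf0]
      have := h v
      omega
    rw [map_add, degree_divOf, add_zero] at h1
    omega

end Main

section Bridge

variable {K F : Type*} [Field K] [IsAlgClosed K] [Field F] [Algebra K F]

/-- **FF1, any characteristic**: principal divisors exist and have degree zero. -/
theorem hasPrincipalDivisors (y : F) (hy : Transcendental K y) [FiniteDimensional K⟮y⟯ F]
    [Algebra.IsSeparable K⟮y⟯ F] : HasPrincipalDivisors K F := by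
  letI := bridgePolyAlgebra (K := K) y
  letI := bridgeRatAlgebra y hy
  haveI := bridge_tower_K_rat y hy
  haveI := bridge_tower_K_poly (K := K) y
  haveI := bridge_tower_poly_rat y hy
  haveI := bridge_finiteDimensional y hy
  haveI := bridge_isSeparable y hy
  exact ⟨fun f hf => exists_divisor K F f hf⟩

/-- `L(E) = 0` for divisors of negative degree. -/
theorem Ldiv_eq_bot_of (y : F) (hy : Transcendental K y) [FiniteDimensional K⟮y⟯ F]
    [Algebra.IsSeparable K⟮y⟯ F] (E : Divisor K F) (hE : Divisor.degree E < 0) :
    Ldiv K F E = ⊥ := by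
  letI := bridgePolyAlgebra (K := K) y
  letI := bridgeRatAlgebra y hy
  haveI := bridge_tower_K_rat y hy
  haveI := bridge_tower_K_poly (K := K) y
  haveI := bridge_tower_poly_rat y hy
  haveI := bridge_finiteDimensional y hy
  haveI := bridge_isSeparable y hy
  exact Ldiv_eq_bot K F E hE

/-- A function without zeros and poles is constant. -/
theorem exists_const_of_ord_eq_zero (y : F) (hy : Transcendental K y) [FiniteDimensional K⟮y⟯ F]
    [Algebra.IsSeparable K⟮y⟯ F] (f : F) (hf : ∀ v : Place K F, 0 ≤ v.ord f) :
    ∃ c : K, f = algebraMap K F c := by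
  letI := bridgePolyAlgebra (K := K) y
  letI := bridgeRatAlgebra y hy
  haveI := bridge_tower_K_rat y hy
  haveI := bridge_tower_K_poly (K := K) y
  haveI := bridge_tower_poly_rat y hy
  haveI := bridge_finiteDimensional y hy
  haveI := bridge_isSeparable y hy
  have hmem : f ∈ Ldiv K F 0 := by
    rw [mem_Ldiv_iff_ord]
    right
    intro v
    simpa using hf v
  rw [Ldiv_eq, Afin_zero, Ainf_zero, inf_Bfin_Binf, Submodule.mem_span_singleton] at hmem
  obtain ⟨c, hc⟩ := hmem
  exact ⟨c, by rw [← hc, Algebra.smul_def, mul_one]⟩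

end Bridge

end RRD
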