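import Mathlib
import Fermat.Agent.RRD.Principal
import Fermat.Agent.RR.Duality

/-!
# RR-DIV (helper1), part 8: duality and the Riemann-Roch theorem, any characteristic

Setting of `RR/Field.lean`, `k` algebraically closed of any characteristic, `F / k(X)` finite
separable.

* `RRD.canonical k F` : the canonical divisor `W = Diff(Bfin) + Diff(Binf) - 2 (y)_∞`;
* `RRD.serre` : `h⁰(W - E) = h¹(E)`, `h¹(W - E) = h⁰(E)`;
* `RRD.riemann_roch` : `dim L(E) - dim L(W - E) = deg E + 1 - g`;
* `RRD.degree_canonical` : `deg W = 2 g - 2`; `RRD.finrank_Ldiv_canonical` : `dim L(W) = g`;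
* `RRD.rr_large` : `dim L(E) = deg E + 1 - g` if `deg E ≥ 2 g - 1`.
-/

set_option autoImplicit false
set_option linter.style.longLine false
set_option linter.unusedSectionVars false
set_option linter.style.haveILetI false
set_option linter.unusedVariables false
set_option linter.deprecated false

noncomputable section

namespace RRD

open Module Polynomial UniqueFactorizationMonoid IsDedekindDomain AlgebraicCurve IntermediateField
  RRalg FractionalIdeal nonZeroDivisors Submodule
open scoped WithZero

section Main

variable (k : Type*) [Field k] [IsAlgClosed k] (F : Type*) [Field F]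
  [Algebra (RatFunc k) F] [Algebra k F] [IsScalarTower k (RatFunc k) F] [Algebra k[X] F]
  [IsScalarTower k[X] (RatFunc k) F] [IsScalarTower k k[X] F]
  [FiniteDimensional (RatFunc k) F] [Algebra.IsSeparable (RatFunc k) F]

attribute [local instance] h1f_isTorsionFree_B h1f_isDedekindDomain_B h1f_isFractionRing_B
  h1f_tower_ABF
attribute [local instance] H27L6.h27f_isTorsionFree_B H27L6.h27f_isDedekindDomain_B
  H27L6.h27f_isFractionRing_B

/-- The exponents of the different of `Bfin`. -/
def canFin : HeightOneSpectrum ↥(integralClosure k[X] F) →₀ ℤ :=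
  Finsupp.ofSupportFinite
    (fun P => count F P ((differentIdeal k[X] ↥(integralClosure k[X] F) :
      Ideal ↥(integralClosure k[X] F)) : FractionalIdeal (↥(integralClosure k[X] F))⁰ F))
    (ideg_support_finite F _)

/-- The exponents of the different of `Binf`, corrected by `-2 (y)_∞`. -/
def canInf : HeightOneSpectrum ↥(integralClosure (Rinf k) F) →₀ ℤ :=
  Finsupp.ofSupportFinite
    (fun Q => count F Q ((differentIdeal (Rinf k) ↥(integralClosure (Rinf k) F) :
        Ideal ↥(integralClosure (Rinf k) F)) : FractionalIdeal (↥(integralClosure (Rinf k) F))⁰ F)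
      - 2 * count F Q (spanSingleton (↥(integralClosure (Rinf k) F))⁰ (yGen k F)⁻¹))
    (haveI := finite_primes_inf k F; Set.toFinite _)

/-- **The canonical divisor** attached to the model. -/
def canonical : Divisor k F :=
  Finsupp.mapDomain (placeFin k F) (canFin k F) + Finsupp.mapDomain (placeInf k F) (canInf k F)

theorem canonical_placeFin (P : HeightOneSpectrum ↥(integralClosure k[X] F)) :
    canonical k F (placeFin k F P)
      = count F P ((differentIdeal k[X] ↥(integralClosure k[X] F) :
          Ideal ↥(integralClosure k[X] F)) : FractionalIdeal (↥(integralClosure k[X] F))⁰ F) := by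
  unfold canonical
  rw [Finsupp.add_apply, Finsupp.mapDomain_apply (placeFin_injective k F),
    Finsupp.mapDomain_notin_range, add_zero]
  · rfl
  · rintro ⟨Q, hQ⟩
    exact placeFin_ne_placeInf k F P Q hQ.symm

theorem canonical_placeInf (Q : HeightOneSpectrum ↥(integralClosure (Rinf k) F)) :
    canonical k F (placeInf k F Q)
      = count F Q ((differentIdeal (Rinf k) ↥(integralClosure (Rinf k) F) :
          Ideal ↥(integralClosure (Rinf k) F)) : FractionalIdeal (↥(integralClosure (Rinf k) F))⁰ F)
        - 2 * count F Q (spanSingleton (↥(integralClosure (Rinf k) F))⁰ (yGen k F)⁻¹) := by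
  unfold canonical
  rw [Finsupp.add_apply, Finsupp.mapDomain_apply (placeInf_injective k F),
    Finsupp.mapDomain_notin_range, zero_add]
  · rfl
  · rintro ⟨P, hP⟩
    exact placeFin_ne_placeInf k F P Q hP

/-! ### the dual lattices -/

theorem count_dual {A K L B : Type*} [CommRing A] [Field K] [CommRing B] [Field L]
    [Algebra A K] [Algebra B L] [Algebra A B] [Algebra K L] [Algebra A L]
    [IsScalarTower A K L] [IsScalarTower A B L] [IsDomain A] [IsFractionRing A K]
    [FiniteDimensional K L] [Algebra.IsSeparable K L] [IsIntegralClosure B A L]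
    [IsFractionRing B L] [IsIntegrallyClosed A] [IsDedekindDomain B] [IsTorsionFree A B]
    [IsDedekindDomain A]
    (P : HeightOneSpectrum B) {I : FractionalIdeal B⁰ L} (hI : I ≠ 0) :
    count L P (FractionalIdeal.dual A K I)
      = - count L P ((differentIdeal A B : Ideal B) : FractionalIdeal B⁰ L) - count L P I := by
  have h1 : FractionalIdeal.dual A K (1 : FractionalIdeal B⁰ L)
      = ((differentIdeal A B : Ideal B) : FractionalIdeal B⁰ L)⁻¹ := by
    rw [coeIdeal_differentIdeal A K L B, inv_inv]
  have hd : FractionalIdeal.dual A K (1 : FractionalIdeal B⁰ L) ≠ 0 :=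
    FractionalIdeal.dual_ne_zero A K one_ne_zero
  rw [FractionalIdeal.dual_eq_mul_inv A K (I := I), count_mul L P hd (inv_ne_zero hI), h1,
    count_inv, count_inv]
  ring

theorem dual_idealFin (E : Divisor k F) :
    FractionalIdeal.dual k[X] (RatFunc k) (idealFin k F E) = idealFin k F (canonical k F - E) := by
  have hI : idealFin k F E ≠ 0 := idealOf_ne_zero F _
  unfold idealFin
  refine idealOf_eq F (FractionalIdeal.dual_ne_zero k[X] (RatFunc k) (idealOf_ne_zero F _)) ?_
  intro P
  rw [count_dual P (idealOf_ne_zero F _), count_idealOf, expFin_apply, expFin_apply,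
    Finsupp.sub_apply, canonical_placeFin]
  ring

theorem yinv_ne_zero : (yGen k F)⁻¹ ≠ 0 := inv_ne_zero (yGen_ne_zero k F)

theorem twist_dual_idealInf (E : Divisor k F) :
    spanSingleton (↥(integralClosure (Rinf k) F))⁰ ((yGen k F)⁻¹ * (yGen k F)⁻¹)
        * FractionalIdeal.dual (Rinf k) (RatFunc k) (idealInf k F E)
      = idealInf k F (canonical k F - E) := by
  have hI : idealInf k F E ≠ 0 := idealOf_ne_zero F _
  have hy := yinv_ne_zero k F
  have hs : spanSingleton (↥(integralClosure (Rinf k) F))⁰ (yGen k F)⁻¹ ≠ 0 :=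
    spanSingleton_ne_zero_iff.mpr hy
  have hd : FractionalIdeal.dual (Rinf k) (RatFunc k) (idealInf k F E) ≠ 0 :=
    FractionalIdeal.dual_ne_zero (Rinf k) (RatFunc k) hI
  unfold idealInf at hd ⊢
  refine idealOf_eq F (mul_ne_zero (spanSingleton_ne_zero_iff.mpr (mul_ne_zero hy hy)) hd) ?_
  intro Q
  rw [← spanSingleton_mul_spanSingleton, count_mul F Q (mul_ne_zero hs hs) hd,
    count_mul F Q hs hs, count_dual Q (idealOf_ne_zero F _), count_idealOf, expInf_apply,
    expInf_apply, Finsupp.sub_apply, canonical_placeInf]
  ring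

theorem dualSubmodule_Mfin (E : Divisor k F) :
    sk (k := k) ((Algebra.traceForm (RatFunc k) F).dualSubmodule (Mfin k F E))
      = Afin k F (canonical k F - E) := by
  have hI : idealFin k F E ≠ 0 := idealOf_ne_zero F _
  have h := FractionalIdeal.coe_dual k[X] (RatFunc k) hI
  unfold Afin
  rw [← dual_idealFin]
  ext x
  rw [mem_fsk, ← FractionalIdeal.mem_coe, h]
  rfl

theorem algebraMap_X_zpow :
    algebraMap (RatFunc k) F ((RatFunc.X : RatFunc k) ^ (-2 : ℤ))
      = (yGen k F)⁻¹ * (yGen k F)⁻¹ := by
  rw [map_zpow₀]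
  show (yGen k F) ^ (-2 : ℤ) = _
  rw [zpow_neg, zpow_ofNat, pow_two, mul_inv]

theorem twist_dualSubmodule_Minf (E : Divisor k F) :
    sk (k := k) (twist ((RatFunc.X : RatFunc k) ^ (-2 : ℤ))
        ((Algebra.traceForm (RatFunc k) F).dualSubmodule (Minf k F E)))
      = Ainf k F (canonical k F - E) := by
  have hI : idealInf k F E ≠ 0 := idealOf_ne_zero F _
  have h := FractionalIdeal.coe_dual (Rinf k) (RatFunc k) hI
  unfold Ainf
  rw [← twist_dual_idealInf]
  ext x
  rw [mem_fsk, mem_singleton_mul, Submodule.restrictScalars_mem, mem_twist]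
  constructor
  · rintro ⟨m, hm, rfl⟩
    refine ⟨m, ?_, ?_⟩
    · rw [← FractionalIdeal.mem_coe, h]
      exact hm
    · rw [Algebra.smul_def, algebraMap_X_zpow]
  · rintro ⟨m, hm, rfl⟩
    refine ⟨m, ?_, ?_⟩
    · rw [← FractionalIdeal.mem_coe, h] at hm
      exact hm
    · rw [Algebra.smul_def, algebraMap_X_zpow]

/-- **Serre duality** for divisors. -/
theorem serre (E : Divisor k F) :
    h0 (Afin k F (canonical k F - E)) (Ainf k F (canonical k F - E))
        = h1 (Afin k F E) (Ainf k F E) ∧
      h1 (Afin k F (canonical k F - E)) (Ainf k F (canonical k F - E))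
        = h0 (Afin k F E) (Ainf k F E) := by
  have h := serre_duality (Algebra.traceForm (RatFunc k) F)
    (traceForm_nondegenerate (RatFunc k) F) (Algebra.traceForm_isSymm (RatFunc k))
    (Mfin k F E) (Minf k F E)
  rw [dualSubmodule_Mfin, twist_dualSubmodule_Minf, sk_Mfin, sk_Minf] at h
  exact h

/-- `h¹(E) = dim L(W - E)`. -/
theorem h1_eq_finrank (E : Divisor k F) :
    h1 (Afin k F E) (Ainf k F E) = finrank k ↥(Ldiv k F (canonical k F - E)) := by
  rw [← (serre k F E).1, Ldiv_eq]
  rfl

/-- **The Riemann-Roch theorem.** -/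
theorem riemann_roch (E : Divisor k F) :
    (finrank k ↥(Ldiv k F E) : ℤ) - finrank k ↥(Ldiv k F (canonical k F - E))
      = Divisor.degree E + 1 - genusAt k F := by
  rw [finrank_Ldiv k F E, h1_eq_finrank]
  ring

theorem finrank_Ldiv_zero : finrank k ↥(Ldiv k F (0 : Divisor k F)) = 1 := by
  rw [Ldiv_eq, Afin_zero, Ainf_zero]
  exact h0_Bfin_Binf

/-- `dim L(W) = g`. -/
theorem finrank_Ldiv_canonical : finrank k ↥(Ldiv k F (canonical k F)) = genusAt k F := by
  have h := h1_eq_finrank k F 0
  rw [sub_zero, Afin_zero, Ainf_zero] at h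
  exact h.symm

/-- `deg W = 2 g - 2`. -/
theorem degree_canonical : Divisor.degree (canonical k F) = 2 * (genusAt k F : ℤ) - 2 := by
  have h := riemann_roch k F (canonical k F)
  rw [sub_self, finrank_Ldiv_zero, finrank_Ldiv_canonical] at h
  push_cast at h
  linarith

/-- **Riemann-Roch for divisors of large degree.** -/
theorem rr_large (E : Divisor k F) (hE : 2 * (genusAt k F : ℤ) - 1 ≤ Divisor.degree E) :
    (finrank k ↥(Ldiv k F E) : ℤ) = Divisor.degree E + 1 - genusAt k F := by
  have h := riemann_roch k F E
  have hneg : Divisor.degree (canonical k F - E) < 0 := by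
    rw [map_sub, degree_canonical]
    linarith
  rw [Ldiv_eq_bot k F _ hneg, finrank_bot] at h
  push_cast at h
  linarith

/-- `h¹(E) = 0` for divisors of large degree. -/
theorem h1_eq_zero (E : Divisor k F) (hE : 2 * (genusAt k F : ℤ) - 1 ≤ Divisor.degree E) :
    h1 (Afin k F E) (Ainf k F E) = 0 := by
  have hneg : Divisor.degree (canonical k F - E) < 0 := by
    rw [map_sub, degree_canonical]
    linarith
  rw [h1_eq_finrank, Ldiv_eq_bot k F _ hneg, finrank_bot]

end Main

section Bridge

variable {K F : Type*} [Field K] [IsAlgClosed K] [Field F] [Algebra K F]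

/-- The canonical divisor in the model given by `y` (instance-free). -/
def canonicalY (y : F) (hy : Transcendental K y) [FiniteDimensional K⟮y⟯ F]
    [Algebra.IsSeparable K⟮y⟯ F] : Divisor K F :=
  letI := bridgePolyAlgebra (K := K) y
  letI := bridgeRatAlgebra y hy
  haveI := bridge_tower_K_rat y hy
  haveI := bridge_tower_K_poly (K := K) y
  haveI := bridge_tower_poly_rat y hy
  haveI := bridge_finiteDimensional y hy
  haveI := bridge_isSeparable y hy
  canonical K F

/-- **The Riemann-Roch theorem** (any characteristic, instance-free). -/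
theorem riemann_roch_of (y : F) (hy : Transcendental K y) [FiniteDimensional K⟮y⟯ F]
    [Algebra.IsSeparable K⟮y⟯ F] (E : Divisor K F) :
    (finrank K ↥(Ldiv K F E) : ℤ) - finrank K ↥(Ldiv K F (canonicalY y hy - E))
      = Divisor.degree E + 1 - genusY y hy := by
  letI := bridgePolyAlgebra (K := K) y
  letI := bridgeRatAlgebra y hy
  haveI := bridge_tower_K_rat y hy
  haveI := bridge_tower_K_poly (K := K) y
  haveI := bridge_tower_poly_rat y hy
  haveI := bridge_finiteDimensional y hy
  haveI := bridge_isSeparable y hy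
  exact riemann_roch K F E

theorem degree_canonicalY (y : F) (hy : Transcendental K y) [FiniteDimensional K⟮y⟯ F]
    [Algebra.IsSeparable K⟮y⟯ F] :
    Divisor.degree (canonicalY y hy) = 2 * (genusY y hy : ℤ) - 2 := by
  letI := bridgePolyAlgebra (K := K) y
  letI := bridgeRatAlgebra y hy
  haveI := bridge_tower_K_rat y hy
  haveI := bridge_tower_K_poly (K := K) y
  haveI := bridge_tower_poly_rat y hy
  haveI := bridge_finiteDimensional y hy
  haveI := bridge_isSeparable y hy
  exact degree_canonical K F

theorem finrank_Ldiv_canonicalY (y : F) (hy : Transcendental K y) [FiniteDimensional K⟮y⟯ F]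
    [Algebra.IsSeparable K⟮y⟯ F] :
    finrank K ↥(Ldiv K F (canonicalY y hy)) = genusY y hy := by
  letI := bridgePolyAlgebra (K := K) y
  letI := bridgeRatAlgebra y hy
  haveI := bridge_tower_K_rat y hy
  haveI := bridge_tower_K_poly (K := K) y
  haveI := bridge_tower_poly_rat y hy
  haveI := bridge_finiteDimensional y hy
  haveI := bridge_isSeparable y hy
  exact finrank_Ldiv_canonical K F

/-- **Riemann-Roch for divisors of degree `≥ 2g - 1`** (any characteristic, instance-free). -/
theorem rr_large_of (y : F) (hy : Transcendental K y) [FiniteDimensional K⟮y⟯ F]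
    [Algebra.IsSeparable K⟮y⟯ F] (E : Divisor K F)
    (hE : 2 * (genusY y hy : ℤ) - 1 ≤ Divisor.degree E) :
    (finrank K ↥(Ldiv K F E) : ℤ) = Divisor.degree E + 1 - genusY y hy := by
  letI := bridgePolyAlgebra (K := K) y
  letI := bridgeRatAlgebra y hy
  haveI := bridge_tower_K_rat y hy
  haveI := bridge_tower_K_poly (K := K) y
  haveI := bridge_tower_poly_rat y hy
  haveI := bridge_finiteDimensional y hy
  haveI := bridge_isSeparable y hy
  exact rr_large K F E hE

/-- The genus does not depend on the model. -/
theorem genusY_eq_genusY (y z : F) (hy : Transcendental K y) (hz : Transcendental K z)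
    [FiniteDimensional K⟮y⟯ F] [Algebra.IsSeparable K⟮y⟯ F]
    [FiniteDimensional K⟮z⟯ F] [Algebra.IsSeparable K⟮z⟯ F] :
    genusY y hy = genusY z hz := by
  -- compare on a divisor of large degree
  obtain ⟨v⟩ : Nonempty (Place K F) := by
    letI := bridgePolyAlgebra (K := K) y
    letI := bridgeRatAlgebra y hy
    haveI := bridge_tower_K_rat y hy
    haveI := bridge_tower_K_poly (K := K) y
    haveI := bridge_tower_poly_rat y hy
    haveI := bridge_finiteDimensional y hy
    haveI := bridge_isSeparable y hy
    by_contra hne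
    rw [not_nonempty_iff] at hne
    -- without places every function is constant, contradicting transcendence of `y`
    obtain ⟨c, hc⟩ := exists_const_of_ord_eq_zero y hy y (fun v => hne.elim v)
    apply hy
    rw [hc]
    exact isAlgebraic_algebraMap c
  set m : ℤ := 2 * (genusY y hy : ℤ) + 2 * (genusY z hz : ℤ) with hm
  have hdeg : Divisor.degree (Finsupp.single v m : Divisor K F) = m := by
    rw [Divisor.degree_single, deg_eq_one y hy v]
    simp
  have h1 := rr_large_of y hy (Finsupp.single v m) (by rw [hdeg]; omega)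
  have h2 := rr_large_of z hz (Finsupp.single v m) (by rw [hdeg]; omega)
  rw [h1] at h2
  omega

end Bridge

end RRD
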