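import Mathlib
import Fermat.Agent.RRD.Riemann
import Fermat.Agent.RR.L6FreeFin

/-!
# RR-DIV (helper1), part 9: the Riemann-Hurwitz inequality in count form, any characteristic

`K` algebraically closed, `F / K(y)` finite separable of degree `n`, `g = genusY y hy`.  For every
finite set `S` of points of the `y`-line:

  `∑_{a ∈ S} (n - #{places over a}) + (n - #{places over ∞}) - 2 n ≤ 2 g - 2`.
-/

set_option autoImplicit false
set_option linter.style.longLine false
set_option linter.unusedSectionVars false
set_option linter.style.haveILetI false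
set_option linter.unusedVariables false

noncomputable section

namespace RRD

open Module Polynomial AlgebraicCurve IntermediateField RRalg

variable {K F : Type*} [Field K] [IsAlgClosed K] [Field F] [Algebra K F]

/-- **Riemann-Hurwitz inequality, count form** (any characteristic). -/
theorem rh_count (y : F) (hy : Transcendental K y) [FiniteDimensional K⟮y⟯ F]
    [Algebra.IsSeparable K⟮y⟯ F] (S : Finset K) :
    ∑ a ∈ S, ((finrank K⟮y⟯ F : ℤ)
          - Nat.card {v : Place K F // 0 < v.ord (y - algebraMap K F a)})
        + ((finrank K⟮y⟯ F : ℤ) - Nat.card {v : Place K F // 0 < v.ord y⁻¹})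
        - 2 * (finrank K⟮y⟯ F : ℤ)
      ≤ 2 * (genusY y hy : ℤ) - 2 := by
  letI := bridgePolyAlgebra (K := K) y
  letI := bridgeRatAlgebra y hy
  haveI := bridge_tower_K_rat y hy
  haveI := bridge_tower_K_poly (K := K) y
  haveI := bridge_tower_poly_rat y hy
  haveI := bridge_finiteDimensional y hy
  haveI := bridge_isSeparable y hy
  have hyg : yGen K F = y := bridge_yGen y hy
  have hn : Module.finrank (RatFunc K) F = Module.finrank K⟮y⟯ F := bridge_finrank y hy
  obtain ⟨-, h2⟩ := rr_alg (k := K) (F := F)
  have hfin := H27L6.h27f_count_fin K F S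
  have hinf := h1f_count_inf K F
  rw [hyg, hn] at hfin hinf
  rw [hn] at h2
  have hg : (genusY y hy : ℤ) = (RRalg.h1 (sk (k := K) (Bfin K F)) (sk (k := K) (Binf K F)) : ℤ) := rfl
  rw [hg, h2]
  linarith

end RRD
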